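/-
Project ONE MACHINE (S43), block [F], cell (Z7) step [f] (helper15; prefix `twfc_`).

**FROM A FUNCTION-FIELD IDENTITY IN THE LEGENDRE COVER OVER `L1` TO AN IDENTITY ON CLASSES OF `J₀(N)`.**

Interface (= the outputs of `s35d_descU` and of helper4's `s35as_leg_comp_lift`):
`z : JZero N` represented by `f` (`s44f_Rep N m z f`), `f = c₀ · r₀^m · bc g1` with
`g1 ∈ F_N(L1)` (all orders divisible by `m`), `ι g1 = k · R^m · g'` in `lg_E L1 N`, `σ1 = φ|L1`.

* `twfc_class_sq`   : `φ² f = c · r^m · f^Q` over `Q̄` ⟹ `φ φ z = Q z`  (`s35k_class_of_kummer`, `E = 1`);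
* `twfc_cover_sq`   : `σ1² g' = c · r^m · g'^Q` ⟹ `σ1² (ι g1) = c' · r'^m · (ι g1)^Q`  (`s35_alg_aux`);
* `twfc_bar_sq`     : … ⟹ `φ² f = c'' · r''^m · f^Q`  (`ss2_dp_pullback`, `ss2_dp_transfer`);
* **`twfc_class_of_ff_sq`** : … ⟹ `φ • (φ • z) = Q • z`.
-/
import Mathlib
import Fermat.Agent.SS2.DescPhi.KeyBarLeg
import Fermat.Agent.S35.KummerGeom
import Fermat.Agent.S35.Seams
import Fermat.Agent.S44.Frame

set_option autoImplicit false
set_option linter.unusedSectionVars false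
set_option linter.unusedVariables false
set_option linter.style.haveILetI false
set_option synthInstance.maxHeartbeats 400000
set_option maxHeartbeats 1000000

noncomputable section

namespace Fermat.Agent.TW

open ModularCurve AlgebraicCurve Module Fermat.Agent.JT3 Fermat.Agent.S24 Fermat.Agent.SS
  Fermat.Agent.S35 Fermat.Agent.SS2 Fermat.Agent.S44 Fermat.Agent.FF

local notation "GQ" => (AlgebraicClosure ℚ ≃ₐ[ℚ] AlgebraicClosure ℚ)
local notation "Qb" => AlgebraicClosure ℚ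

section Class

variable (N : ℕ) [NeZero N]

/-- **the class step**: `φ² f = c · r^m · f^Q` for a representative `f` of `z` ⟹ `φ φ z = Q z`. -/
theorem twfc_class_sq (φ : GQ) {m : ℕ} (hm : m ≠ 0) {z : JZero N}
    {f : modularFunctionFieldBar N} (hrep : s44f_Rep N m z f) (Q : ℕ)
    {c : Qb} {r : modularFunctionFieldBar N} (hr : r ≠ 0)
    (h : ss_act N φ (ss_act N φ f) =
      algebraMap Qb (modularFunctionFieldBar N) c * r ^ m * f ^ Q) :
    φ • (φ • z) = Q • z := by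
  obtain ⟨hf, D, rfl, hD⟩ := hrep
  set gφ : SemilinearAut Qb (modularFunctionFieldBar N) :=
    arithmeticGalois (modularFunctionFieldFull N) φ with hgφ
  have h' : (gφ • (gφ • f)) ^ 1 =
      algebraMap Qb (modularFunctionFieldBar N) c * r ^ m * f ^ (Q * 1) := by
    rw [pow_one, mul_one]
    exact h
  have key := s35k_class_of_kummer gφ D hm hf hD 1 Q hr h'
  rw [one_smul, sub_eq_zero] at key
  exact key

end Class

section Cover

variable (L1 : Type) [Field L1] [Algebra ℚ L1] [CharZero L1] [Algebra L1 Qb]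
  [IsScalarTower ℚ L1 Qb] (N : ℕ) [NeZero N]

/-- **the cover step**: from the identity for `g'` to the identity for `G0 = k · R^m · g'`. -/
theorem twfc_cover_sq (σ : L1 ≃+* L1) {m : ℕ} (Q : ℕ) {k : L1} {R g' G0 : lg_E L1 N}
    (hk : k ≠ 0) (hR : R ≠ 0) (hG0 : G0 = algebraMap L1 (lg_E L1 N) k * R ^ m * g')
    {c : L1} {r : lg_E L1 N}
    (hid : ssm_sg_aut N σ (ssm_sg_aut N σ g') = algebraMap L1 (lg_E L1 N) c * r ^ m * g' ^ Q) :
    ssm_sg_aut N σ (ssm_sg_aut N σ G0) =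
      algebraMap L1 (lg_E L1 N) (σ (σ k) * c / k ^ Q) *
        (ssm_sg_aut N σ (ssm_sg_aut N σ R) * r / R ^ Q) ^ m * G0 ^ Q := by
  have hkE : algebraMap L1 (lg_E L1 N) k ≠ 0 := by rwa [Ne, map_eq_zero]
  rw [hG0, map_mul, map_mul, map_mul, map_mul, map_pow, map_pow, hid, ssm_sg_aut_algebraMap,
    ssm_sg_aut_algebraMap,
    s35_alg_aux (algebraMap L1 (lg_E L1 N) k) (algebraMap L1 (lg_E L1 N) (σ (σ k)))
      (algebraMap L1 (lg_E L1 N) c) (ssm_sg_aut N σ (ssm_sg_aut N σ R)) r R g' m Q hkE hR,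
    map_div₀, map_mul, map_pow]

end Cover

section Bar

variable (L1 : Type) [Field L1] [Algebra ℚ L1] [CharZero L1] [Algebra L1 Qb]
  [IsScalarTower ℚ L1 Qb] (N : ℕ) [NeZero N]

/-- **the descent step back to `Q̄`**: from the identity for `ι g1` in the cover over `L1` to the
identity for `f = c₀ · r₀^m · bc g1` over `Q̄`. -/
theorem twfc_bar_sq (φ : GQ) (σ1 : L1 ≃ₐ[ℚ] L1)
    (hσ : ∀ x : L1, algebraMap L1 Qb (σ1 x) = φ (algebraMap L1 Qb x))
    {m : ℕ} (hm : m ≠ 0) (Q : ℕ) {f : modularFunctionFieldBar N}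
    (g1 : laurentBaseChange L1 (modularFunctionFieldFull N)) (hg1 : g1 ≠ 0)
    (hord : ∀ w : Place L1 (laurentBaseChange L1 (modularFunctionFieldFull N)),
      (m : ℤ) ∣ w.ord g1)
    {c₀ : Qb} {r₀ : modularFunctionFieldBar N} (hc₀ : c₀ ≠ 0) (hr₀ : r₀ ≠ 0)
    (hfeq : f = algebraMap Qb (modularFunctionFieldBar N) c₀ * r₀ ^ m *
      dsc_bcHom L1 Qb (modularFunctionFieldFull N) g1)
    {c : L1} {r : lg_E L1 N}
    (hid : ssm_sg_aut N σ1.toRingEquiv (ssm_sg_aut N σ1.toRingEquiv (ss2_dp_iota L1 N g1)) =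
      algebraMap L1 (lg_E L1 N) c * r ^ m * ss2_dp_iota L1 N g1 ^ Q) :
    ∃ (c' : Qb) (r' : modularFunctionFieldBar N), r' ≠ 0 ∧
      ss_act N φ (ss_act N φ f) =
        algebraMap Qb (modularFunctionFieldBar N) c' * r' ^ m * f ^ Q := by
  obtain ⟨c', r', hr', hcr'⟩ := ss2_dp_pullback L1 N φ σ1 hσ hm 1 Q g1 hg1 hord c r
    (by rw [pow_one]; exact hid)
  set G := dsc_bcHom L1 Qb (modularFunctionFieldFull N) g1 with hG
  set Φ : modularFunctionFieldBar N →+* modularFunctionFieldBar N :=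
    MulSemiringAction.toRingHom _ _ (arithmeticGalois (modularFunctionFieldFull N) φ) with hΦ
  have hΦapp : ∀ x, Φ x = ss_act N φ x := fun x => rfl
  have hCc₀ : algebraMap Qb (modularFunctionFieldBar N) c₀ ≠ 0 := by rwa [Ne, map_eq_zero]
  have htr := ss2_dp_transfer (Φ.comp Φ) (Q := Q) (d := 1) hCc₀ hr₀ hfeq
    (by
      show ss_act N φ (ss_act N φ G) ^ 1 = _
      rw [mul_one]
      exact hcr')
  have hΦΦC : (Φ.comp Φ) (algebraMap Qb (modularFunctionFieldBar N) c₀) =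
      algebraMap Qb (modularFunctionFieldBar N) (φ (φ c₀)) := by
    show ss_act N φ (ss_act N φ _) = _
    rw [ss2_dp_act_const, ss2_dp_act_const]
  have hΦΦr : (Φ.comp Φ) r₀ ≠ 0 := by rwa [Ne, map_eq_zero]
  refine ⟨φ (φ c₀) * c' / c₀ ^ Q, (Φ.comp Φ) r₀ * r' / r₀ ^ Q,
    div_ne_zero (mul_ne_zero hΦΦr hr') (pow_ne_zero _ hr₀), ?_⟩
  have htr' : ss_act N φ (ss_act N φ f) ^ 1 = _ := htr
  rw [pow_one, hΦΦC, pow_one, pow_one, mul_one] at htr'
  rw [htr']
  simp only [map_div₀, map_mul, map_pow]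

/-- **[f], square shape ((Z7))**: the function-field identity `σ1² g' = c · r^m · g'^Q` for the
normalised `g'` (`ι g1 = k · R^m · g'`) gives `φ • (φ • z) = Q • z` for the class `z` represented by
`f = c₀ · r₀^m · bc g1`. -/
theorem twfc_class_of_ff_sq (φ : GQ) (σ1 : L1 ≃ₐ[ℚ] L1)
    (hσ : ∀ x : L1, algebraMap L1 Qb (σ1 x) = φ (algebraMap L1 Qb x))
    {m : ℕ} (hm : m ≠ 0) (Q : ℕ) {z : JZero N} {f : modularFunctionFieldBar N}
    (hrep : s44f_Rep N m z f)
    (g1 : laurentBaseChange L1 (modularFunctionFieldFull N)) (hg1 : g1 ≠ 0)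
    (hord : ∀ w : Place L1 (laurentBaseChange L1 (modularFunctionFieldFull N)),
      (m : ℤ) ∣ w.ord g1)
    {c₀ : Qb} {r₀ : modularFunctionFieldBar N} (hc₀ : c₀ ≠ 0) (hr₀ : r₀ ≠ 0)
    (hfeq : f = algebraMap Qb (modularFunctionFieldBar N) c₀ * r₀ ^ m *
      dsc_bcHom L1 Qb (modularFunctionFieldFull N) g1)
    {k : L1} {R g' : lg_E L1 N} (hk : k ≠ 0) (hR : R ≠ 0)
    (hι : ss2_dp_iota L1 N g1 = algebraMap L1 (lg_E L1 N) k * R ^ m * g')
    {c : L1} {r : lg_E L1 N}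
    (hid : ssm_sg_aut N σ1.toRingEquiv (ssm_sg_aut N σ1.toRingEquiv g') =
      algebraMap L1 (lg_E L1 N) c * r ^ m * g' ^ Q) :
    φ • (φ • z) = Q • z := by
  have h1 := twfc_cover_sq L1 N σ1.toRingEquiv Q hk hR hι hid
  obtain ⟨c', r', hr', h2⟩ := twfc_bar_sq L1 N φ σ1 hσ hm Q g1 hg1 hord hc₀ hr₀ hfeq h1
  exact twfc_class_sq N φ hm hrep Q hr' h2

end Bar

end Fermat.Agent.TW
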