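import Mathlib
import Fermat.Agent.S35.Toric.SFDLocal
import Fermat.Agent.S44.Mono.NuDef

/-!
# Project ONE MACHINE, block [F], cells (Z3)/(Z7): THE ORDER AT A REGULAR NODE (helper20)

Abstract local computation at a regular node of the two-component model (shared by (Z3)
[MONO-tame] and (Z7) [TORIC]).

`R` a noetherian integrally closed factorial domain (the local ring `B_𝔫` of a chart at a crossing
point), `F = Frac R`, `π ∈ R`, `u v : R` prime elements dividing `π`, `u ∉ (v)`, such that every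
prime divisor of `π` is associated to `u` or to `v` (`(v)` = the branch of the first component
`V₁`, `(u)` = the branch of the second component `V₂`).  `g ∈ Fˣ` with all HORIZONTAL orders
divisible by `m` (shape of `tori_sfd_local`), a unit at `(v)`, with `g / u ^ n` a unit at `(u)`
(`n = V₂(g)` when `u v = π · unit`).

* `twft_node_factor` : `g = ω · u ^ n · e₀ ^ m`, `ω ∈ Rˣ`, `e₀` a unit at `(u)` and at `(v)`;
* `twft_node_ord`    : for ANY normalised order `ν` at the closed point along the branch `(v)` w.r.t.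
                       `u` (`s44nu_IsNu lam u (v) ν`, S44/Mono/NuDef):  `ν g = n + m · ν e₀`, i.e.
                       `ord_node (red_{V₁} g) ≡ V₂(g) − V₁(g)  (mod m)`;
* `twft_node_comp`   : if moreover `g ≡ k · s ^ m` modulo `(v) R_{(v)}` with `k ∈ Rˣ`, `s` a unit at
                       `(v)` (the `V₁`-reduction of `g` is a constant times an `m`-th power), then
                       `m ∣ n`  (THE COMPONENT-GROUP STATEMENT).

Prefix `twft_`, namespace `Fermat.Agent.TW`.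
-/

set_option autoImplicit false
set_option linter.unusedSectionVars false
set_option linter.unusedVariables false
set_option linter.style.haveILetI false

namespace Fermat.Agent.TW

open Fermat.Agent.SS Fermat.Agent.S35 Fermat.Agent.S44

section Node

variable {R : Type*} [CommRing R] [IsDomain R] [IsNoetherianRing R] [IsIntegrallyClosed R]
  [UniqueFactorizationMonoid R] {F : Type*} [Field F] [Algebra R F] [IsFractionRing R F]

/-- **the local factorisation at a regular node.** -/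
theorem twft_node_factor {π u v : R} (hup : Prime u) (hvp : Prime v) (huπ : u ∣ π) (hvπ : v ∣ π)
    (hπ : ∀ p : R, Prime p → p ∣ π → Associated p u ∨ Associated p v)
    (huv : u ∉ Ideal.span {v})
    {m : ℕ} {g : F} (hg : g ≠ 0) (n : ℤ)
    (hdiv : ∀ 𝔮 : Ideal R, ssl_Horiz π 𝔮 → ∃ G : F, G ≠ 0 ∧ ssl_UnitAt F 𝔮 (g / G ^ m))
    (hg1 : ssl_UnitAt F (Ideal.span {v}) g)
    (hg2 : ssl_UnitAt F (Ideal.span {u}) (g / algebraMap R F u ^ n)) :
    ∃ (e₀ : F) (ω : Rˣ), e₀ ≠ 0 ∧ ssl_UnitAt F (Ideal.span {u}) e₀ ∧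
      ssl_UnitAt F (Ideal.span {v}) e₀ ∧
      g = algebraMap R F (ω : R) * algebraMap R F u ^ n * e₀ ^ m := by
  haveI hvI : (Ideal.span {v} : Ideal R).IsPrime :=
    (Ideal.span_singleton_prime hvp.ne_zero).2 hvp
  haveI huI : (Ideal.span {u} : Ideal R).IsPrime :=
    (Ideal.span_singleton_prime hup.ne_zero).2 hup
  have hU0 : algebraMap R F u ≠ 0 := ssl_algebraMap_ne_zero hup.ne_zero
  have hUn0 : algebraMap R F u ^ n ≠ 0 := zpow_ne_zero n hU0
  set g' : F := g / algebraMap R F u ^ n with hg'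
  have hg'0 : g' ≠ 0 := div_ne_zero hg hUn0
  -- horizontal primes
  have hdiv' : ∀ 𝔮 : Ideal R, ssl_Horiz π 𝔮 →
      ∃ G : F, G ≠ 0 ∧ ssl_UnitAt F 𝔮 (g' / G ^ m) := by
    intro 𝔮 h𝔮
    obtain ⟨G, hG0, hG⟩ := hdiv 𝔮 h𝔮
    haveI := h𝔮.1
    refine ⟨G, hG0, ?_⟩
    have hu𝔮 : u ∉ 𝔮 := fun hmem => h𝔮.2.2 (by
      obtain ⟨c, rfl⟩ := huπ
      exact 𝔮.mul_mem_right _ hmem)
    have e : g' / G ^ m = (g / G ^ m) / algebraMap R F u ^ n := by
      rw [hg']
      have : G ^ m ≠ 0 := pow_ne_zero m hG0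
      field_simp
    rw [e]
    exact ssl_unitAt_div 𝔮 hG (ssl_unitAt_zpow 𝔮 (ssl_unitAt_algebraMap 𝔮 hu𝔮) n)
  -- vertical primes
  have hvert' : ∀ p : R, Prime p → p ∣ π → ssl_UnitAt F (Ideal.span {p}) g' := by
    intro p hp hpπ
    rcases hπ p hp hpπ with h | h
    · rw [Ideal.span_singleton_eq_span_singleton.2 h]
      exact hg2
    · rw [Ideal.span_singleton_eq_span_singleton.2 h]
      exact ssl_unitAt_div _ hg1 (ssl_unitAt_zpow _ (ssl_unitAt_algebraMap _ huv) n)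
  obtain ⟨e₀, he₀, hev, ω, hω⟩ := tori_sfd_local (R := R) (F := F) π m hg'0 hdiv' hvert'
  refine ⟨e₀, ω, he₀, hev u hup huπ, hev v hvp hvπ, ?_⟩
  have : g = g' * algebraMap R F u ^ n := by rw [hg', div_mul_cancel₀ _ hUn0]
  rw [this, hω]
  ring

/-- **the order at a regular node**: `ν g = n + m · ν e₀`. -/
theorem twft_node_ord {π u v lam : R} (hup : Prime u) (hvp : Prime v) (huπ : u ∣ π)
    (hvπ : v ∣ π)
    (hπ : ∀ p : R, Prime p → p ∣ π → Associated p u ∨ Associated p v)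
    (huv : u ∉ Ideal.span {v})
    {m : ℕ} {g : F} (hg : g ≠ 0) (n : ℤ)
    (hdiv : ∀ 𝔮 : Ideal R, ssl_Horiz π 𝔮 → ∃ G : F, G ≠ 0 ∧ ssl_UnitAt F 𝔮 (g / G ^ m))
    (hg1 : ssl_UnitAt F (Ideal.span {v}) g)
    (hg2 : ssl_UnitAt F (Ideal.span {u}) (g / algebraMap R F u ^ n))
    {ν : F → ℤ} (hν : s44nu_IsNu lam u (Ideal.span {v}) ν) :
    ∃ t : ℤ, ν g = n + m * t := by
  obtain ⟨e₀, ω, he₀, -, -, hge⟩ :=
    twft_node_factor hup hvp huπ hvπ hπ huv hg n hdiv hg1 hg2
  have hU0 : algebraMap R F u ≠ 0 := ssl_algebraMap_ne_zero hup.ne_zero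
  have hω0 : algebraMap R F (ω : R) ≠ 0 := ssl_algebraMap_ne_zero ω.ne_zero
  refine ⟨ν e₀, ?_⟩
  rw [hge, hν.add _ _ (mul_ne_zero hω0 (zpow_ne_zero n hU0)) (pow_ne_zero m he₀),
    hν.add _ _ hω0 (zpow_ne_zero n hU0), hν.unit, hν.add.map_zpow _ n hU0, hν.u,
    hν.add.map_pow _ m he₀]
  ring

/-- **the component-group statement at a regular node**: if the reduction of `g` along the branch
`(v)` is a constant times an `m`-th power, then `m ∣ n = V₂(g) − V₁(g)`. -/
theorem twft_node_comp {π u v lam : R} (hup : Prime u) (hvp : Prime v) (huπ : u ∣ π)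
    (hvπ : v ∣ π)
    (hπ : ∀ p : R, Prime p → p ∣ π → Associated p u ∨ Associated p v)
    (huv : u ∉ Ideal.span {v})
    {m : ℕ} {g : F} (hg : g ≠ 0) (n : ℤ)
    (hdiv : ∀ 𝔮 : Ideal R, ssl_Horiz π 𝔮 → ∃ G : F, G ≠ 0 ∧ ssl_UnitAt F 𝔮 (g / G ^ m))
    (hg1 : ssl_UnitAt F (Ideal.span {v}) g)
    (hg2 : ssl_UnitAt F (Ideal.span {u}) (g / algebraMap R F u ^ n))
    {ν : F → ℤ} (hν : s44nu_IsNu lam u (Ideal.span {v}) ν)
    (k : Rˣ) {s : F} (hs : s ≠ 0)
    (hcong : ∃ b c : R, b ∈ Ideal.span {v} ∧ c ∉ Ideal.span {v} ∧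
      (g / (algebraMap R F (k : R) * s ^ m) - 1) * algebraMap R F c = algebraMap R F b) :
    (m : ℤ) ∣ n := by
  obtain ⟨t, ht⟩ := twft_node_ord hup hvp huπ hvπ hπ huv hg n hdiv hg1 hg2 hν
  have hk0 : algebraMap R F (k : R) ≠ 0 := ssl_algebraMap_ne_zero k.ne_zero
  have hks0 : algebraMap R F (k : R) * s ^ m ≠ 0 := mul_ne_zero hk0 (pow_ne_zero m hs)
  set x : F := g / (algebraMap R F (k : R) * s ^ m) with hx
  have hx0 : x ≠ 0 := div_ne_zero hg hks0
  have hνx : ν x = 0 := hν.red x hcong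
  have hgx : g = x * (algebraMap R F (k : R) * s ^ m) := by rw [hx, div_mul_cancel₀ _ hks0]
  have h2 : ν g = m * ν s := by
    rw [hgx, hν.add _ _ hx0 hks0, hνx, hν.add _ _ hk0 (pow_ne_zero m hs), hν.unit,
      hν.add.map_pow _ m hs]
    ring
  refine ⟨ν s - t, ?_⟩
  rw [mul_sub, ← h2, ht]
  ring

end Node

end Fermat.Agent.TW
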