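import Mathlib
import Fermat.Agent.TW.Easy.Toric.NodeOrd
import Fermat.Agent.S35.Toric.SFDChart
import Fermat.Agent.S44.Mono.NuExistsGen

/-!
# Project ONE MACHINE, block [F], cells (Z3)/(Z7): THE ORDER AT A REGULAR NODE OF A CHART (helper20)

Chart form of `TW/Easy/Toric/NodeOrd.lean`.  `A0` a discrete valuation ring with uniformiser `π`,
`B ⊆ F0` a chart (noetherian, integrally closed, `Frac B = F0`) of the two-component model,
`P1, P2` its vertical primes (`π B = P1 ∩ P2`, incomparable), `𝔫 ⊇ P1 + P2` a prime with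
regular-node data (`tori_sfd_NodeData 𝔫 π P1 P2`, helper19).

* `twft_nc_pkg`  : the node package of `R = B_𝔫`: prime elements `u` (`P2 R = (u)`), `v`
                   (`P1 R = (v)`), `𝔪_R = (v, u, v)`, `π = u v ε` with `ε ∈ Rˣ`, `u ∉ (v)`;
* `twft_nc_comp` : **the component-group statement**: `g ∈ F0ˣ` with all orders at the places of
                   `F0 / K` divisible by `m`, a unit at `P1`, `g / π ^ n` a unit at `P2`, and
                   `g ≡ k · s ^ m` modulo `P1 B_{P1}` (`k ∈ A0ˣ`, `s` a unit at `P1`)  ⟹  `m ∣ n`.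
Prefix `twft_nc_`, namespace `Fermat.Agent.TW`.
-/

set_option autoImplicit false
set_option linter.unusedSectionVars false
set_option linter.unusedVariables false
set_option linter.style.haveILetI false

namespace Fermat.Agent.TW

open Fermat.Agent.SS Fermat.Agent.S35 Fermat.Agent.S44 Fermat.Agent.JT3 AlgebraicCurve IsLocalRing

universe v

section Chart

variable {A0 : Type*} [CommRing A0] [IsDomain A0] [IsDiscreteValuationRing A0]
  {K : Type*} [Field K] [Algebra A0 K] [IsFractionRing A0 K]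
  {F0 : Type v} [Field F0] [Algebra A0 F0] [Algebra K F0] [IsScalarTower A0 K F0]
variable {B : Subalgebra A0 F0} [IsFractionRing B F0] [IsNoetherianRing B] [IsIntegrallyClosed B]
variable (𝔫 : Ideal B) [h𝔫 : 𝔫.IsPrime] {π : A0}
variable (P1 P2 : Ideal B) [hP1 : P1.IsPrime] [hP2 : P2.IsPrime]

/-- the extension of a prime `P ≤ 𝔫` generated (locally) by `w` is `(w)`. -/
theorem twft_nc_map_eq (P : Ideal B) [hP : P.IsPrime] {w : F0} {s t : B} (hs : s ∉ 𝔫)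
    (ht : t ∈ P) (hw : (s : F0) * w = t)
    (hgen : ∀ z ∈ P, ∃ s c : B, s ∉ 𝔫 ∧ (s : F0) * (z : F0) = w * c) :
    Ideal.map (algebraMap B (ssl_locSub F0 𝔫)) P =
      Ideal.span {(⟨w, ssl_loc_mem_of 𝔫 hs hw⟩ : ssl_locSub F0 𝔫)} := by
  set wR : ssl_locSub F0 𝔫 := ⟨w, ssl_loc_mem_of 𝔫 hs hw⟩ with hwR
  apply le_antisymm
  · rw [Ideal.map_le_iff_le_comap]
    intro z hz
    rw [Ideal.mem_comap, Ideal.mem_span_singleton]
    obtain ⟨s', c, hs', hsc⟩ := hgen z hz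
    have h1 : algebraMap B (ssl_locSub F0 𝔫) s' * algebraMap B (ssl_locSub F0 𝔫) z =
        wR * algebraMap B (ssl_locSub F0 𝔫) c := Subtype.ext hsc
    have h2 : wR ∣ algebraMap B (ssl_locSub F0 𝔫) s' * algebraMap B (ssl_locSub F0 𝔫) z :=
      ⟨_, h1⟩
    exact ((ssl_loc_isUnit 𝔫 hs').dvd_mul_left).1 h2
  · rw [Ideal.span_le, Set.singleton_subset_iff]
    have h1 : algebraMap B (ssl_locSub F0 𝔫) s * wR = algebraMap B (ssl_locSub F0 𝔫) t :=
      Subtype.ext hw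
    have h2 : algebraMap B (ssl_locSub F0 𝔫) s * wR ∈
        Ideal.map (algebraMap B (ssl_locSub F0 𝔫)) P := by
      rw [h1]; exact Ideal.mem_map_of_mem _ ht
    exact (Ideal.unit_mul_mem_iff_mem _ (ssl_loc_isUnit 𝔫 hs)).1 h2

/-- an element of `B` lies in the extension of the prime `P ≤ 𝔫` iff it lies in `P`. -/
theorem twft_nc_mem_map_iff (P : Ideal B) [hP : P.IsPrime] (hP𝔫 : P ≤ 𝔫) (b : B) :
    algebraMap B (ssl_locSub F0 𝔫) b ∈ Ideal.map (algebraMap B (ssl_locSub F0 𝔫)) P ↔ b ∈ P := by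
  have hdisj : Disjoint (𝔫.primeCompl : Set B) (P : Set B) :=
    Set.disjoint_left.2 fun x hx hxP => hx (hP𝔫 hxP)
  have h := IsLocalization.under_map_of_isPrime_disjoint 𝔫.primeCompl (ssl_locSub F0 𝔫) hP hdisj
  constructor
  · intro hb
    have : b ∈ Ideal.under B (Ideal.map (algebraMap B (ssl_locSub F0 𝔫)) P) := hb
    rwa [h] at this
  · exact fun hb => Ideal.mem_map_of_mem _ hb

variable (hrad : Ideal.span {algebraMap A0 B π} = P1 ⊓ P2) (h12 : ¬ P1 ≤ P2) (h21 : ¬ P2 ≤ P1)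

include hrad h21 in
/-- **the node package of `R = B_𝔫`.** -/
theorem twft_nc_pkg (hϖ0 : algebraMap A0 F0 π ≠ 0) (hP1𝔫 : P1 ≤ 𝔫) (hP2𝔫 : P2 ≤ 𝔫)
    (hnd : tori_sfd_NodeData 𝔫 π P1 P2) :
    ∃ uR vR : ssl_locSub F0 𝔫, Prime uR ∧ Prime vR ∧
      Ideal.map (algebraMap B (ssl_locSub F0 𝔫)) P2 = Ideal.span {uR} ∧
      Ideal.map (algebraMap B (ssl_locSub F0 𝔫)) P1 = Ideal.span {vR} ∧
      (haveI := ssl_loc_isLocalRing (F0 := F0) 𝔫
       maximalIdeal (ssl_locSub F0 𝔫) = Ideal.span {vR, uR, vR}) ∧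
      (∃ ε : (ssl_locSub F0 𝔫)ˣ,
        algebraMap B (ssl_locSub F0 𝔫) (algebraMap A0 B π) = uR * vR * (ε : ssl_locSub F0 𝔫)) ∧
      uR ∉ Ideal.span {vR} := by
  haveI := ssl_loc_isNoetherianRing (F0 := F0) 𝔫
  haveI := ssl_loc_isLocalRing (F0 := F0) 𝔫
  have hπ12 : algebraMap A0 B π ∈ P1 ⊓ P2 := by
    rw [← hrad]; exact Ideal.subset_span rfl
  have hπ1 : algebraMap A0 B π ∈ P1 := hπ12.1
  have hπ2 : algebraMap A0 B π ∈ P2 := hπ12.2
  obtain ⟨u, v, ⟨su, tu, hsu, htu, hu⟩, ⟨sv, tv, hsv, htv, hv⟩, hgen2, hgen1, hgen⟩ := hnd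
  have hϖB : algebraMap A0 B π ≠ 0 := by
    intro h0
    apply hϖ0
    have := congrArg (fun t : B => (t : F0)) h0
    simpa using this
  have hP10 : P1 ≠ ⊥ := fun h => hϖB ((Submodule.mem_bot _).1 (h ▸ hπ1))
  have hP20 : P2 ≠ ⊥ := fun h => hϖB ((Submodule.mem_bot _).1 (h ▸ hπ2))
  obtain ⟨hup, hud⟩ := tori_sfd_prime_of_gen 𝔫 P2 hP2𝔫 hP20 hsu htu hu hgen2
  obtain ⟨hvp, hvd⟩ := tori_sfd_prime_of_gen 𝔫 P1 hP1𝔫 hP10 hsv htv hv hgen1
  have hmap2 := twft_nc_map_eq 𝔫 P2 hsu htu hu hgen2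
  have hmap1 := twft_nc_map_eq 𝔫 P1 hsv htv hv hgen1
  set uR : ssl_locSub F0 𝔫 := ⟨u, ssl_loc_mem_of 𝔫 hsu hu⟩ with huR
  set vR : ssl_locSub F0 𝔫 := ⟨v, ssl_loc_mem_of 𝔫 hsv hv⟩ with hvR
  -- `𝔪 = (u, v)`
  have hmax : maximalIdeal (ssl_locSub F0 𝔫) = Ideal.span {uR, vR} := by
    rw [← IsLocalization.AtPrime.map_eq_maximalIdeal 𝔫 (ssl_locSub F0 𝔫)]
    apply le_antisymm
    · rw [Ideal.map_le_iff_le_comap]
      intro z hz
      obtain ⟨s, c1, c2, c3, hs, hsz⟩ := hgen z hz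
      obtain ⟨r, hr⟩ := hvd _ hπ1
      have h1 : algebraMap B (ssl_locSub F0 𝔫) s * algebraMap B (ssl_locSub F0 𝔫) z =
          vR * r * algebraMap B (ssl_locSub F0 𝔫) c1 +
            uR * algebraMap B (ssl_locSub F0 𝔫) c2 + vR * algebraMap B (ssl_locSub F0 𝔫) c3 := by
        rw [← hr]
        exact Subtype.ext hsz
      have h2 : algebraMap B (ssl_locSub F0 𝔫) s * algebraMap B (ssl_locSub F0 𝔫) z ∈
          Ideal.span {uR, vR} := by
        rw [h1]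
        have hu' : uR ∈ Ideal.span {uR, vR} := Ideal.subset_span (by simp)
        have hv' : vR ∈ Ideal.span {uR, vR} := Ideal.subset_span (by simp)
        refine Ideal.add_mem _ (Ideal.add_mem _ ?_ (Ideal.mul_mem_right _ _ hu'))
          (Ideal.mul_mem_right _ _ hv')
        rw [mul_assoc]
        exact Ideal.mul_mem_right _ _ hv'
      rw [Ideal.mem_comap]
      exact (Ideal.unit_mul_mem_iff_mem _ (ssl_loc_isUnit 𝔫 hs)).1 h2
    · rw [Ideal.span_le]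
      rintro y (rfl | rfl)
      · exact ssl_loc_mem_map_of 𝔫 hsu (hP2𝔫 htu) hu
      · exact ssl_loc_mem_map_of 𝔫 hsv (hP1𝔫 htv) hv
  -- `u ∉ (v)`
  have huv : uR ∉ Ideal.span {vR} := by
    intro hmem
    apply h21
    intro b hb
    rw [← twft_nc_mem_map_iff 𝔫 P1 hP1𝔫, hmap1]
    have h1 : algebraMap B (ssl_locSub F0 𝔫) b ∈ Ideal.span {uR} := by
      rw [← hmap2]; exact Ideal.mem_map_of_mem _ hb
    rw [Ideal.mem_span_singleton] at h1 hmem ⊢
    exact hmem.trans h1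
  refine ⟨uR, vR, hup, hvp, hmap2, hmap1, ?_, ?_, huv⟩
  · rw [hmax]
    apply le_antisymm
    · rw [Ideal.span_le]
      rintro y (rfl | rfl)
      · exact Ideal.subset_span (by simp)
      · exact Ideal.subset_span (by simp)
    · rw [Ideal.span_le]
      rintro y (rfl | rfl | rfl)
      · exact Ideal.subset_span (by simp)
      · exact Ideal.subset_span (by simp)
      · exact Ideal.subset_span (by simp)
  · -- `π = u v ε`
    have hvπ : vR ∣ algebraMap B (ssl_locSub F0 𝔫) (algebraMap A0 B π) := hvd _ hπ1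
    have huπ : uR ∣ algebraMap B (ssl_locSub F0 𝔫) (algebraMap A0 B π) := hud _ hπ2
    obtain ⟨c, hc⟩ := huπ
    have hvc : vR ∣ c := by
      have : vR ∣ uR * c := hc ▸ hvπ
      rcases hvp.dvd_or_dvd this with h | h
      · exact absurd (Ideal.mem_span_singleton.2 h) huv
      · exact h
    obtain ⟨ε, hε⟩ := hvc
    -- `u v ∈ (π)`
    have htt : tu * tv ∈ Ideal.span {algebraMap A0 B π} := by
      rw [hrad]
      exact ⟨P1.mul_mem_left _ htv, P2.mul_mem_right _ htu⟩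
    obtain ⟨d, hd⟩ := Ideal.mem_span_singleton'.1 htt
    have h3 : algebraMap B (ssl_locSub F0 𝔫) (su * sv) * (uR * vR) =
        algebraMap B (ssl_locSub F0 𝔫) d *
          algebraMap B (ssl_locSub F0 𝔫) (algebraMap A0 B π) := by
      rw [← map_mul, hd]
      apply Subtype.ext
      show ((su : F0) * (sv : F0)) * (u * v) = (tu : F0) * (tv : F0)
      rw [← hu, ← hv]; ring
    have hsu' : IsUnit (algebraMap B (ssl_locSub F0 𝔫) (su * sv)) := by
      rw [map_mul]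
      exact (ssl_loc_isUnit 𝔫 hsu).mul (ssl_loc_isUnit 𝔫 hsv)
    have huv0 : uR * vR ≠ 0 := mul_ne_zero hup.ne_zero hvp.ne_zero
    -- `(su sv) · u v = d · u v ε`, so `ε` is a unit
    have h4 : algebraMap B (ssl_locSub F0 𝔫) (su * sv) * (uR * vR) =
        (algebraMap B (ssl_locSub F0 𝔫) d * ε) * (uR * vR) := by
      rw [h3, hc, hε]; ring
    have h5 : algebraMap B (ssl_locSub F0 𝔫) (su * sv) =
        algebraMap B (ssl_locSub F0 𝔫) d * ε := mul_right_cancel₀ huv0 h4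
    have hεu : IsUnit ε := by
      have : IsUnit (algebraMap B (ssl_locSub F0 𝔫) d * ε) := h5 ▸ hsu'
      exact isUnit_of_mul_isUnit_right this
    exact ⟨hεu.unit, by rw [hc, hε, IsUnit.unit_spec]; ring⟩

/-- a unit at `P` (fraction form over `B`) is a unit at the prime element generating `P B_𝔫`. -/
theorem twft_nc_unitAt_of_unitV (P : Ideal B) [hP : P.IsPrime] (hP𝔫 : P ≤ 𝔫)
    {wR : ssl_locSub F0 𝔫}
    (hmap : Ideal.map (algebraMap B (ssl_locSub F0 𝔫)) P = Ideal.span {wR}) {z : F0}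
    (hz : tori_UnitV P z) : ssl_UnitAt F0 (Ideal.span {wR}) z := by
  obtain ⟨s, t, hs, ht, hst⟩ := hz
  refine ⟨algebraMap B (ssl_locSub F0 𝔫) t, algebraMap B (ssl_locSub F0 𝔫) s, ?_, ?_, ?_⟩
  · rw [← hmap, twft_nc_mem_map_iff 𝔫 P hP𝔫]; exact ht
  · rw [← hmap, twft_nc_mem_map_iff 𝔫 P hP𝔫]; exact hs
  · show z * (s : F0) = (t : F0)
    rw [mul_comm]; exact hst

include hrad h12 h21 in
/-- **the component-group statement at a regular node of a chart.** -/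
theorem twft_nc_comp (hπ : Irreducible π) (hϖ0 : algebraMap A0 F0 π ≠ 0) (hP1𝔫 : P1 ≤ 𝔫)
    (hP2𝔫 : P2 ≤ 𝔫) (hnd : tori_sfd_NodeData 𝔫 π P1 P2)
    (m : ℕ) {g : F0} (hg : g ≠ 0) (hord : ∀ P : Place K F0, (m : ℤ) ∣ P.ord g)
    (n : ℤ) (hg1 : tori_UnitV P1 g) (hg2 : tori_UnitV P2 (g / algebraMap A0 F0 π ^ n))
    {k : A0} (hk : IsUnit k) {s : F0} (hs : tori_UnitV P1 s)
    (hcong : tori_MemM P1 (g - algebraMap A0 F0 k * s ^ m)) : (m : ℤ) ∣ n := by
  haveI := ssl_loc_isNoetherianRing (F0 := F0) 𝔫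
  haveI := ssl_loc_isIntegrallyClosed (F0 := F0) 𝔫
  haveI := ssl_loc_isLocalRing (F0 := F0) 𝔫
  have hπ12 : algebraMap A0 B π ∈ P1 ⊓ P2 := by
    rw [← hrad]; exact Ideal.subset_span rfl
  haveI : UniqueFactorizationMonoid (ssl_locSub F0 𝔫) :=
    (tori_sfd_of_node 𝔫 hϖ0 P1 P2 hπ12.1 hπ12.2 hP1𝔫 hP2𝔫 hnd).1
  obtain ⟨uR, vR, hup, hvp, hmap2, hmap1, hmax, ⟨ε, hε⟩, huv⟩ :=
    twft_nc_pkg 𝔫 P1 P2 hrad h21 hϖ0 hP1𝔫 hP2𝔫 hnd
  haveI hvI : (Ideal.span {vR} : Ideal (ssl_locSub F0 𝔫)).IsPrime :=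
    (Ideal.span_singleton_prime hvp.ne_zero).2 hvp
  haveI huI : (Ideal.span {uR} : Ideal (ssl_locSub F0 𝔫)).IsPrime :=
    (Ideal.span_singleton_prime hup.ne_zero).2 hup
  set Pi0 : ssl_locSub F0 𝔫 := algebraMap B (ssl_locSub F0 𝔫) (algebraMap A0 B π) with hPi0
  have huπ : uR ∣ Pi0 := ⟨vR * ε, by rw [hε]; ring⟩
  have hvπ : vR ∣ Pi0 := ⟨uR * ε, by rw [hε]; ring⟩
  have hπ' : ∀ p : ssl_locSub F0 𝔫, Prime p → p ∣ Pi0 → Associated p uR ∨ Associated p vR := by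
    intro p hp hpPi0
    rw [hε] at hpPi0
    rcases hp.dvd_or_dvd hpPi0 with h | h
    · rcases hp.dvd_or_dvd h with h' | h'
      · exact Or.inl (hp.associated_of_dvd hup h')
      · exact Or.inr (hp.associated_of_dvd hvp h')
    · exact absurd (isUnit_of_dvd_unit h ε.isUnit) hp.not_isUnit
  have hvu : vR ∉ Ideal.span {uR} := by
    intro hmem
    apply huv
    rw [Ideal.mem_span_singleton] at hmem ⊢
    exact ((hup.associated_of_dvd hvp hmem).symm).dvd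
  -- the normalised order
  obtain ⟨ν, hν⟩ := s44nx_exists (F := F0) (lam := vR) (u := uR) (v := vR) hmax
    (Ideal.span {vR}) (tori_sfd_height_span hvp) (Ideal.mem_span_singleton_self _)
    (Ideal.mem_span_singleton_self _) huv
    (fun z hz => ⟨1, fun h1 => hvI.ne_top ((Ideal.eq_top_iff_one _).2 h1), by
      rw [one_mul]; exact Ideal.mem_span_singleton.1 hz⟩) hvp.ne_zero
  -- the hypotheses on `g`
  have hdiv : ∀ 𝔮 : Ideal (ssl_locSub F0 𝔫), ssl_Horiz Pi0 𝔮 →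
      ∃ G : F0, G ≠ 0 ∧ ssl_UnitAt F0 𝔮 (g / G ^ m) := fun 𝔮 h𝔮 =>
    ssl_hdiv_of_places (K := K) (R := ssl_locSub F0 𝔫) hπ hg m hord 𝔮 h𝔮
  have hg1' : ssl_UnitAt F0 (Ideal.span {vR}) g :=
    twft_nc_unitAt_of_unitV 𝔫 P1 hP1𝔫 hmap1 hg1
  have hg2a : ssl_UnitAt F0 (Ideal.span {uR}) (g / algebraMap A0 F0 π ^ n) :=
    twft_nc_unitAt_of_unitV 𝔫 P2 hP2𝔫 hmap2 hg2
  have hPiF : algebraMap A0 F0 π = algebraMap (ssl_locSub F0 𝔫) F0 uR *
      (algebraMap (ssl_locSub F0 𝔫) F0 vR *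
        algebraMap (ssl_locSub F0 𝔫) F0 (ε : ssl_locSub F0 𝔫)) := by
    have := congrArg (algebraMap (ssl_locSub F0 𝔫) F0) hε
    rw [map_mul, map_mul, mul_assoc] at this
    rw [← this]
    rfl
  have hU0 : algebraMap (ssl_locSub F0 𝔫) F0 uR ≠ 0 := ssl_algebraMap_ne_zero hup.ne_zero
  have hV0 : algebraMap (ssl_locSub F0 𝔫) F0 vR ≠ 0 := ssl_algebraMap_ne_zero hvp.ne_zero
  have hE0 : algebraMap (ssl_locSub F0 𝔫) F0 (ε : ssl_locSub F0 𝔫) ≠ 0 :=
    ssl_algebraMap_ne_zero ε.ne_zero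
  have hg2' : ssl_UnitAt F0 (Ideal.span {uR})
      (g / algebraMap (ssl_locSub F0 𝔫) F0 uR ^ n) := by
    have e : g / algebraMap (ssl_locSub F0 𝔫) F0 uR ^ n =
        (g / algebraMap A0 F0 π ^ n) * (algebraMap (ssl_locSub F0 𝔫) F0 vR *
          algebraMap (ssl_locSub F0 𝔫) F0 (ε : ssl_locSub F0 𝔫)) ^ n := by
      rw [hPiF, mul_zpow]
      have h1 : algebraMap (ssl_locSub F0 𝔫) F0 uR ^ n ≠ 0 := zpow_ne_zero n hU0
      have h2 : (algebraMap (ssl_locSub F0 𝔫) F0 vR *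
          algebraMap (ssl_locSub F0 𝔫) F0 (ε : ssl_locSub F0 𝔫)) ^ n ≠ 0 :=
        zpow_ne_zero n (mul_ne_zero hV0 hE0)
      field_simp
    rw [e]
    refine ssl_unitAt_mul _ hg2a (ssl_unitAt_zpow _ (ssl_unitAt_mul _
      (ssl_unitAt_algebraMap _ hvu) (ssl_unitAt_algebraMap _ ?_)) n)
    exact fun hmem => huI.ne_top (Ideal.eq_top_of_isUnit_mem _ hmem ε.isUnit)
  -- the constant
  have hkR : IsUnit (algebraMap B (ssl_locSub F0 𝔫) (algebraMap A0 B k)) :=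
    (hk.map (algebraMap A0 B)).map (algebraMap B (ssl_locSub F0 𝔫))
  have hkF : algebraMap (ssl_locSub F0 𝔫) F0 ((hkR.unit : (ssl_locSub F0 𝔫)ˣ) :
      ssl_locSub F0 𝔫) = algebraMap A0 F0 k := by
    rw [IsUnit.unit_spec]
    rfl
  have hkP1 : algebraMap A0 B k ∉ P1 := fun hmem =>
    hP1.ne_top (Ideal.eq_top_of_isUnit_mem _ hmem (hk.map (algebraMap A0 B)))
  have hs0 : s ≠ 0 := tori_unitV_ne_zero hs
  -- the congruence
  obtain ⟨s', t, hs', ht, hst⟩ := hcong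
  obtain ⟨a1, a2, ha1, ha2, ha⟩ := hs
  have ha10 : (a1 : F0) ≠ 0 := tori_coe_ne_zero ha1
  have hk0 : algebraMap A0 F0 k ≠ 0 := by
    rw [← hkF]; exact ssl_algebraMap_ne_zero (Units.ne_zero _)
  refine twft_node_comp (π := Pi0) (lam := vR) hup hvp huπ hvπ hπ' huv hg n hdiv hg1' hg2' hν
    hkR.unit hs0 ⟨algebraMap B (ssl_locSub F0 𝔫) (t * a1 ^ m),
      algebraMap B (ssl_locSub F0 𝔫) (s' * algebraMap A0 B k * a2 ^ m), ?_, ?_, ?_⟩
  · rw [← hmap1, twft_nc_mem_map_iff 𝔫 P1 hP1𝔫]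
    exact P1.mul_mem_right _ ht
  · rw [← hmap1, twft_nc_mem_map_iff 𝔫 P1 hP1𝔫]
    intro hmem
    rcases hP1.mem_or_mem hmem with h | h
    · rcases hP1.mem_or_mem h with h' | h'
      · exact hs' h'
      · exact hkP1 h'
    · exact ha2 (hP1.mem_of_pow_mem m h)
  · rw [hkF]
    show (g / (algebraMap A0 F0 k * s ^ m) - 1) *
        ((s' : F0) * algebraMap A0 F0 k * (a2 : F0) ^ m) = (t : F0) * (a1 : F0) ^ m
    rw [← hst, ← ha, mul_pow]
    have hsm : s ^ m ≠ 0 := pow_ne_zero m hs0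
    field_simp

end Chart

end Fermat.Agent.TW
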