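import Mathlib
import Fermat.Agent.TW.Easy.Toric.NodeChart
import Fermat.Agent.S35.Conn
import Fermat.Agent.S35.Toric.SFDInstGen
import Fermat.Agent.S35.Toric.FunField

/-!
# Project ONE MACHINE, block [F], cells (Z3)/(Z7): THE COMPONENT-GROUP STATEMENT FOR A
TWO-COMPONENT MODEL OF A FUNCTION FIELD (helper20)

* `twft_nf_exists_cross` : in an `ss_Model` whose points at infinity (of the `x⁻¹`-chart) are smooth,
  the two components MEET AT A CLOSED POINT OF THE `x`-CHART (helper23's Zariski connectedness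
  `s35c_exists_node` + transfer from the `x⁻¹`-chart).
* `twft_nf_comp` : function-field form of `twft_nc_comp` in valuation language: `g` with all orders
  divisible by `m`, a unit at `V₁`, `g / π ^ n` a unit at `V₂`, `g ≡ k · s ^ m` modulo `𝔪(V₁)` with
  `k ∈ A0ˣ`, `s ∈ V₁ˣ`  ⟹  `m ∣ n`.
Prefix `twft_nf_`, namespace `Fermat.Agent.TW`.
-/

set_option autoImplicit false
set_option linter.unusedSectionVars false
set_option linter.unusedVariables false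
set_option linter.style.haveILetI false

namespace Fermat.Agent.TW

open Fermat.Agent.SS Fermat.Agent.S35 Fermat.Agent.S44 Fermat.Agent.JT3 AlgebraicCurve IsLocalRing
  IntermediateField

universe v

section Transfer

variable {A0 : Type*} [CommRing A0] {F0 : Type v} [Field F0] [Algebra A0 F0]

/-- **transfer of a crossing point** from a chart `B₂` to a chart `B₁` (`B₁, B₂ ≤ B₁₂ = B₂[1/y]`,
`y ∈ B₂`): if the contractions of `P1`, `P2` to `B₂` lie in a prime `𝔫` not containing `y`, then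
their contractions to `B₁` are not comaximal. -/
theorem twft_nf_transfer (B1 B2 B12 : Subalgebra A0 F0) (hle1 : B1 ≤ B12) (hle2 : B2 ≤ B12)
    (P1 P2 : Ideal B12) {y : F0} (hy : y ∈ B2)
    (hclear : ∀ z ∈ B12, ∃ k : ℕ, y ^ k * z ∈ B2)
    (𝔫 : Ideal B2) [h𝔫 : 𝔫.IsPrime]
    (h1 : P1.comap (Subalgebra.inclusion hle2) ≤ 𝔫) (h2 : P2.comap (Subalgebra.inclusion hle2) ≤ 𝔫)
    (hy𝔫 : (⟨y, hy⟩ : B2) ∉ 𝔫) :
    P1.comap (Subalgebra.inclusion hle1) ⊔ P2.comap (Subalgebra.inclusion hle1) ≠ ⊤ := by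
  intro htop
  apply hy𝔫
  have h1mem : (1 : B1) ∈
      P1.comap (Subalgebra.inclusion hle1) ⊔ P2.comap (Subalgebra.inclusion hle1) := by
    rw [htop]; exact Submodule.mem_top
  obtain ⟨a, ha, b, hb, hab⟩ := Submodule.mem_sup.1 h1mem
  obtain ⟨k, hk⟩ := hclear _ (hle1 a.2)
  obtain ⟨k', hk'⟩ := hclear _ (hle1 b.2)
  have hpow : ∀ j : ℕ, y ^ j ∈ B2 := fun j => pow_mem hy j
  have hA : y ^ (k + k') * (a : F0) ∈ B2 := by
    have : y ^ (k + k') * (a : F0) = y ^ k' * (y ^ k * (a : F0)) := by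
      rw [pow_add]; ring
    rw [this]
    exact mul_mem (hpow k') hk
  have hB : y ^ (k + k') * (b : F0) ∈ B2 := by
    have : y ^ (k + k') * (b : F0) = y ^ k * (y ^ k' * (b : F0)) := by
      rw [pow_add]; ring
    rw [this]
    exact mul_mem (hpow k) hk'
  have hAmem : (⟨y ^ (k + k') * (a : F0), hA⟩ : B2) ∈ 𝔫 := by
    apply h1
    rw [Ideal.mem_comap]
    have e : Subalgebra.inclusion hle2 (⟨y ^ (k + k') * (a : F0), hA⟩ : B2) =
        (⟨y, hle2 hy⟩ : B12) ^ (k + k') * Subalgebra.inclusion hle1 a :=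
      Subtype.ext (by simp)
    rw [e]
    exact P1.mul_mem_left _ ha
  have hBmem : (⟨y ^ (k + k') * (b : F0), hB⟩ : B2) ∈ 𝔫 := by
    apply h2
    rw [Ideal.mem_comap]
    have e : Subalgebra.inclusion hle2 (⟨y ^ (k + k') * (b : F0), hB⟩ : B2) =
        (⟨y, hle2 hy⟩ : B12) ^ (k + k') * Subalgebra.inclusion hle1 b :=
      Subtype.ext (by simp)
    rw [e]
    exact P2.mul_mem_left _ hb
  have hsum : (⟨y, hy⟩ : B2) ^ (k + k') =
      ⟨y ^ (k + k') * (a : F0), hA⟩ + ⟨y ^ (k + k') * (b : F0), hB⟩ := by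
    apply Subtype.ext
    have hab' : (a : F0) + (b : F0) = 1 := by
      have := congrArg (fun t : B1 => (t : F0)) hab
      simpa using this
    show ((⟨y, hy⟩ : B2) ^ (k + k') : B2).1 = y ^ (k + k') * (a : F0) + y ^ (k + k') * (b : F0)
    rw [← mul_add, hab', mul_one]
    simp
  have : (⟨y, hy⟩ : B2) ^ (k + k') ∈ 𝔫 := by
    rw [hsum]; exact 𝔫.add_mem hAmem hBmem
  exact h𝔫.mem_of_pow_mem _ this

end Transfer

section ComapP

variable {A : Type*} [CommRing A] {E : Type v} [Field E] [Algebra A E]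

/-- the contraction of the vertical prime of `B₁₂` to a smaller chart `B` contains the vertical
prime of `B`. -/
theorem twft_nf_P_le_comap (B B12 : Subalgebra A E) (hle : B ≤ B12) (V : ValuationSubring E)
    (hB12 : ∀ b ∈ B12, b ∈ V) :
    ssm_tp_P B V ≤ (ssm_tp_P B12 V).comap (Subalgebra.inclusion hle) := by
  intro b hb
  rw [Ideal.mem_comap, ssm_tp_mem_P hB12]
  exact (ssm_tp_mem_P (fun c hc => hB12 c (hle hc))).1 hb

end ComapP

section Cross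

variable {A0 : Type*} [CommRing A0] [IsNoetherianRing A0] [IsLocalRing A0]
  {F0 : Type v} [Field F0] [Algebra A0 F0]

/-- **the two components meet at a closed point of the `x`-chart.** -/
theorem twft_nf_exists_cross {π : A0} {x : F0} {σ : F0 ≃+* F0} {σ0 : A0 ≃+* A0}
    {P1 P2 : Ideal (fc_chart A0 ({x, x⁻¹} : Set F0))} (M : ss_Model π x σ σ0 P1 P2)
    (hinf : ∀ 𝔫 : Ideal (fc_chart A0 ({x⁻¹} : Set F0)), 𝔫.IsMaximal →
      algebraMap A0 (fc_chart A0 ({x⁻¹} : Set F0)) π ∈ 𝔫 →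
      (⟨x⁻¹, fc_x_mem_chart x⁻¹⟩ : fc_chart A0 ({x⁻¹} : Set F0)) ∈ 𝔫 →
      ss_SmoothAt π (fc_chart A0 ({x⁻¹} : Set F0)) 𝔫) :
    ∃ 𝔫 : Ideal (fc_chart A0 ({x} : Set F0)), 𝔫.IsMaximal ∧
      P1.comap (Subalgebra.inclusion (fc_chart1_le (A0 := A0) x)) ≤ 𝔫 ∧
      P2.comap (Subalgebra.inclusion (fc_chart1_le (A0 := A0) x)) ≤ 𝔫 := by
  have hx : x ≠ 0 := M.hxS1.2.1
  have := M.prime1
  have := M.prime2
  have hxB1 : x ∈ fc_chart A0 ({x} : Set F0) := fc_x_mem_chart x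
  have hxB2 : x⁻¹ ∈ fc_chart A0 ({x⁻¹} : Set F0) := fc_x_mem_chart x⁻¹
  rcases s35c_exists_node M with ⟨𝔫, hmax, -, h1, h2, -⟩ | ⟨𝔫, hmax, hπ𝔫, h1, h2, -⟩
  · exact ⟨𝔫, hmax, h1, h2⟩
  · by_cases hx𝔫 : (⟨x⁻¹, fc_x_mem_chart x⁻¹⟩ : fc_chart A0 ({x⁻¹} : Set F0)) ∈ 𝔫
    · exfalso
      have hsm := hinf 𝔫 hmax hπ𝔫 hx𝔫
      have hxx : x⁻¹⁻¹ ∈ fc_chart A0 ({x, x⁻¹} : Set F0) := by
        rw [inv_inv]; exact fc_chart1_le x hxB1
      refine s35c_not_dom π _ _ (fc_chart2_le x)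
        (fun _ hb h => s35c_contract2 π hx M.hxS2 hb h) P1 P2 M.hrad ?_ ?_ 𝔫 h1 h2 hsm.2
      · exact s35c_not_comap_le _ _ (fc_chart2_le x) hxB2 hxx (inv_ne_zero hx)
          (fun z hz => fc_clear2 hx hz) P1 P2 M.h12
      · exact s35c_not_comap_le _ _ (fc_chart2_le x) hxB2 hxx (inv_ne_zero hx)
          (fun z hz => fc_clear2 hx hz) P2 P1 M.h21
    · -- transfer to the `x`-chart
      haveI := hmax.isPrime
      exact s35c_exists_max _ _ (twft_nf_transfer _ _ _ (fc_chart1_le x) (fc_chart2_le x) P1 P2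
        hxB2 (fun z hz => fc_clear2 hx hz) 𝔫 h1 h2 hx𝔫)

end Cross

section FunField

variable {A0 L : Type*} {F0 : Type v} [CommRing A0] [IsDomain A0] [IsDiscreteValuationRing A0]
  [Field L] [CharZero L] [Field F0] [Algebra A0 L] [IsFractionRing A0 L] [Algebra L F0]
  [Algebra A0 F0] [IsScalarTower A0 L F0]

/-- **the component-group statement for a two-component model of a function field.** -/
theorem twft_nf_comp {π : A0} (hπ : Irreducible π) {x : F0} (hx : Transcendental L x)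
    [FiniteDimensional L⟮x⟯ F0] {V1 V2 : ValuationSubring F0}
    (H : ssm_tp_Hyp (algebraMap A0 (Algebra.adjoin A0 ({x} : Set F0)) π) V1 V2)
    {σ : F0 ≃+* F0} {σ0 : A0 ≃+* A0}
    (M : ss_Model π x σ σ0 (ssm_tp_P (fc_chart A0 ({x, x⁻¹} : Set F0)) V1)
      (ssm_tp_P (fc_chart A0 ({x, x⁻¹} : Set F0)) V2))
    (hpts1 : ∀ 𝔫 : Ideal (fc_chart A0 ({x} : Set F0)), 𝔫.IsMaximal →
      algebraMap A0 (fc_chart A0 ({x} : Set F0)) π ∈ 𝔫 →
      ss_SmoothAt π (fc_chart A0 ({x} : Set F0)) 𝔫 ∨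
        (ssm_tp_P (fc_chart A0 ({x} : Set F0)) V1 ≤ 𝔫 ∧
          ssm_tp_P (fc_chart A0 ({x} : Set F0)) V2 ≤ 𝔫 ∧
          tori_sfd_NodeData 𝔫 π (ssm_tp_P (fc_chart A0 ({x} : Set F0)) V1)
            (ssm_tp_P (fc_chart A0 ({x} : Set F0)) V2)))
    (hinf : ∀ 𝔫 : Ideal (fc_chart A0 ({x⁻¹} : Set F0)), 𝔫.IsMaximal →
      algebraMap A0 (fc_chart A0 ({x⁻¹} : Set F0)) π ∈ 𝔫 →
      (⟨x⁻¹, fc_x_mem_chart x⁻¹⟩ : fc_chart A0 ({x⁻¹} : Set F0)) ∈ 𝔫 →
      ss_SmoothAt π (fc_chart A0 ({x⁻¹} : Set F0)) 𝔫)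
    (m : ℕ) {g : F0} (hg : g ≠ 0) (hord : ∀ P : AlgebraicCurve.Place L F0, (m : ℤ) ∣ P.ord g)
    (hg1 : g ∈ V1 ∧ g ∉ V1.nonunits) (n : ℤ)
    (hg2 : g / algebraMap A0 F0 π ^ n ∈ V2 ∧ g / algebraMap A0 F0 π ^ n ∉ V2.nonunits)
    {k : A0} (hk : IsUnit k) {s : F0} (hs : s ∈ V1 ∧ s ∉ V1.nonunits)
    (hcong : g - algebraMap A0 F0 k * s ^ m ∈ V1.nonunits) : (m : ℤ) ∣ n := by
  have hxA : Transcendental A0 x := fc_ff_transcendental (L := L) hx
  haveI : IsIntegrallyClosed (Algebra.adjoin A0 ({x} : Set F0)) := fc_ff_isIntegrallyClosed hxA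
  haveI : FaithfulSMul (Algebra.adjoin A0 ({x} : Set F0)) F0 :=
    (faithfulSMul_iff_algebraMap_injective _ _).2 Subtype.val_injective
  have hC := ssm_tp_ff_chart (L := L) hπ hx
  have hC12 := ssm_tp_ff_chart12 (L := L) hπ hx
  obtain ⟨i1, i2, i3⟩ := tori_sfdi_chart_inst (A0 := A0) (L := L) hx
  haveI := i1
  haveI := i2
  haveI := i3
  have hϖ0 : algebraMap A0 F0 π ≠ 0 := by
    have := H.algebraMap_ne_zero
    exact this
  haveI := H.P1_isPrime hC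
  haveI := H.P2_isPrime hC
  have hrad := H.P_inf hC (algebraMap A0 (fc_chart A0 ({x} : Set F0)) π) rfl
  have h12 := H.P_not_le12 hC
  have h21 := H.P_not_le21 hC
  have hx0 : x ≠ 0 := M.hxS1.2.1
  have hxB1 : x ∈ fc_chart A0 ({x} : Set F0) := fc_x_mem_chart x
  have hxB2 : x⁻¹ ∈ fc_chart A0 ({x⁻¹} : Set F0) := fc_x_mem_chart x⁻¹
  obtain ⟨𝔫, hmax, h1, h2⟩ := twft_nf_exists_cross M hinf
  haveI : 𝔫.IsPrime := hmax.isPrime
  have hP1 : ssm_tp_P (fc_chart A0 ({x} : Set F0)) V1 ≤ 𝔫 :=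
    (twft_nf_P_le_comap _ _ (fc_chart1_le x) V1 (fun b hb => hC12.le H.over1 hb)).trans h1
  have hP2 : ssm_tp_P (fc_chart A0 ({x} : Set F0)) V2 ≤ 𝔫 :=
    (twft_nf_P_le_comap _ _ (fc_chart1_le x) V2 (fun b hb => hC12.le H.over2 hb)).trans h2
  have hπ𝔫 : algebraMap A0 (fc_chart A0 ({x} : Set F0)) π ∈ 𝔫 := by
    apply hP1
    rw [H.mem_P1 hC]
    exact H.over1.pi_mem
  haveI := M.prime1
  haveI := M.prime2
  rcases hpts1 𝔫 hmax hπ𝔫 with hsm | ⟨-, -, hnd⟩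
  · exfalso
    refine s35c_not_dom π _ _ (fc_chart1_le x)
      (fun _ hb h => s35c_contract1 π hx0 M.hxS1 hb h) _ _ M.hrad ?_ ?_ 𝔫 h1 h2 hsm.2
    · exact s35c_not_comap_le _ _ (fc_chart1_le x) hxB1 (fc_chart2_le x hxB2) hx0
        (fun z hz => fc_clear1 hx0 hz) _ _ M.h12
    · exact s35c_not_comap_le _ _ (fc_chart1_le x) hxB1 (fc_chart2_le x hxB2) hx0
        (fun z hz => fc_clear1 hx0 hz) _ _ M.h21
  · exact twft_nc_comp (K := L) 𝔫 _ _ hrad h12 h21 hπ hϖ0 hP1 hP2 hnd m hg hord n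
      ((tori_tp_unitV1_iff H hC).1 hg1) ((tori_tp_unitV2_iff H hC).1 hg2) hk
      ((tori_tp_unitV1_iff H hC).1 hs) ((tori_tp_memM1_iff H hC).1 hcong)

end FunField

end Fermat.Agent.TW
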