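import Mathlib
import Fermat.Agent.TW.Easy.Toric.NodeFF
import Fermat.Agent.S35.Toric.SFDInstLeg
import Fermat.Agent.S35.ToricInst.Leg

/-!
# Project ONE MACHINE, block [F], cells (Z3)/(Z7): THE COMPONENT-GROUP STATEMENT FOR THE LEGENDRE
TOWER (helper20)

`L ⊆ Q̄` a number field containing a primitive `N'`-th root of unity, `O` a discrete valuation ring
of `L` with uniformiser `q` (odd, `q ∤ N'`), `E = lg_E L (N' q)`, `V1 V2 = ssm_gl_V1 / ssm_gl_V2` the
two Gauss valuation rings.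

**`twft_leg_comp`** : `G ∈ Eˣ` with all orders at the places of `E / L` divisible by `m`, a unit at
`V1`, `G / q ^ n` a unit at `V2`, and `G ≡ k · S ^ m` modulo `𝔪(V1)` with `k ∈ Oˣ`, `S ∈ V1ˣ`
(the `V1`-reduction of `G` is a constant times an `m`-th power)  ⟹  `m ∣ n`.

[`n = V2(G) − V1(G)`: the class of `(1/m) div G` in the component group of the Néron model.]
Prefix `twft_leg_`, namespace `Fermat.Agent.TW`.
-/

set_option autoImplicit false
set_option linter.unusedSectionVars false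
set_option linter.unusedVariables false
set_option linter.style.haveILetI false

noncomputable section

namespace Fermat.Agent.TW

open Fermat.Agent.SS Fermat.Agent.S35 Fermat.Agent.JT3 IntermediateField ModularCurve IsLocalRing
  AlgebraicCurve Polynomial

section NF

variable (L : Type) [Field L] [NumberField L] [Algebra L (AlgebraicClosure ℚ)]
  (O : ValuationSubring L) [IsDiscreteValuationRing O]
variable (N' q : ℕ) [NeZero N'] [NeZero q] [hq : Fact q.Prime] [CharP (ResidueField O) q]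
  (hq2 : ¬ 2 ∣ q) (hqN' : ¬ q ∣ N') (hπ : Irreducible ((q : ℕ) : ↥O))
  (ζ : L) (hζ : IsPrimitiveRoot ζ N')

include hζ in
set_option synthInstance.maxHeartbeats 400000 in
set_option maxHeartbeats 3200000 in
/-- **the component-group statement for the Legendre tower over a number-field level.** -/
theorem twft_leg_comp (m : ℕ) {G : ↥(lg_E L (N' * q))} (hG : G ≠ 0)
    (hord : ∀ P : Place L ↥(lg_E L (N' * q)), (m : ℤ) ∣ P.ord G)
    (hG1 : G ∈ ssm_gl_V1 O hπ N' q ∧ G ∉ (ssm_gl_V1 O hπ N' q).nonunits) (n : ℤ)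
    (hG2 : G / algebraMap ↥O ↥(lg_E L (N' * q)) ((q : ℕ) : ↥O) ^ n ∈
        ssm_gl_V2 O hπ N' q hq2 hqN' ∧
      G / algebraMap ↥O ↥(lg_E L (N' * q)) ((q : ℕ) : ↥O) ^ n ∉
        (ssm_gl_V2 O hπ N' q hq2 hqN').nonunits)
    {k : ↥O} (hk : IsUnit k) {S : ↥(lg_E L (N' * q))}
    (hS : S ∈ ssm_gl_V1 O hπ N' q ∧ S ∉ (ssm_gl_V1 O hπ N' q).nonunits)
    (hcong : G - algebraMap ↥O ↥(lg_E L (N' * q)) k * S ^ m ∈
      (ssm_gl_V1 O hπ N' q).nonunits) : (m : ℤ) ∣ n := by
  have hqO : ((q : ℕ) : O) ∈ maximalIdeal O := ssm_fln_q_mem L O q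
  have hq2' : q ≠ 2 := ssm_fl_ne_two q hq2
  have hp := ssm_ll_prime L N' hπ q hqO hq2' hqN' ζ hζ
  haveI := ssm_go_isScalarTower O (lg_E L (N' * q))
  haveI : FiniteDimensional L⟮(lg_lamE (N' * q) : lg_E L (N' * q))⟯ ↥(lg_E L (N' * q)) :=
    lgf_finite L (N' * q)
  have hx : Transcendental L (lg_lamE (L := L) (N' * q)) :=
    lgf_lam_transcendental L (N' * q) two_ne_zero
  have H := ssm_gl_hyp O hπ N' q hq2 hqN' hp.1
  have M := s35ti_leg_model L O hπ N' q hq2 hqN' ζ hζ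
  exact twft_nf_comp (L := L) hπ hx H M (tori_sfdi_leg_pts1 L O N' q hq2 hqN' hπ ζ hζ)
    (tori_sfdi_leg_pts2 L O N' q hq2 hqN' hπ ζ hζ) m hG hord hG1 n hG2 hk hS hcong

end NF

end Fermat.Agent.TW
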