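/-
Project ONE MACHINE, block [F], cell (Z7) [TORIC], steps [d] COMP + [e] LIFT IN ONE CALL (helper4).
Prefix `twft_cl_`, namespace `Fermat.Agent.TW`.

Binders of `TW/Easy/Toric/NodeLeg.lean` (helper20): `L ⊆ Q̄` a number field with a primitive `N'`-th
root of unity, `O` a discrete valuation ring of `L` with uniformiser `q` (odd, `q ∤ N'`),
`E = lg_E L (N' q)`, `W = ssm_gl_W`, `κ' = s35kp_kappa O hπ (lg_E L N') _` the residue function
field of the lower level.

* `twft_cl_hcomp` : helper20's component-group statement `twft_leg_comp` in the vocabulary of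
  `S35/AbelAsm`: if all orders of `g` are divisible by `m`, `g π^(-n₁)` and `(W g) π^(-n₂)` are
  Gauss units and the reduction of `g π^(-n₁)` is a constant times an `m`-th power in `κ'`, then
  `m ∣ n₂ - n₁`.
* `twft_cl_main` : **[d] + [e]**: `g ≠ 0` with all orders divisible by `m` whose two normalised
  reductions are constants times `m`-th powers in `κ'` is `c · R^m · g'` with `c ∈ Lˣ`,
  `s35_ConstRed O hπ N' q hq2 hqN' g'` and all orders of `g'` divisible by `m`.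
-/
import Mathlib
import Fermat.Agent.TW.Easy.Toric.NodeLeg
import Fermat.Agent.S35.AbelAsm.NormaliseKappa
import Fermat.Agent.S24.Hurwitz.Places
import Fermat.Agent.S35.AbelAsm.CompData

set_option autoImplicit false
set_option linter.unusedSectionVars false
set_option linter.unusedVariables false
set_option linter.style.haveILetI false

noncomputable section

namespace Fermat.Agent.TW

open Fermat.Agent.SS Fermat.Agent.S35 Fermat.Agent.JT3 Fermat.Agent.S24 Fermat.Agent.S28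
  IntermediateField ModularCurve IsLocalRing AlgebraicCurve Polynomial

section NF

variable (L : Type) [Field L] [NumberField L] [Algebra L (AlgebraicClosure ℚ)]
  (O : ValuationSubring L) [IsDiscreteValuationRing O]
variable (N' q : ℕ) [NeZero N'] [NeZero q] [hq : Fact q.Prime] [CharP (ResidueField O) q]
  (hq2 : ¬ 2 ∣ q) (hqN' : ¬ q ∣ N') (hπ : Irreducible ((q : ℕ) : ↥O))
  (ζ : L) (hζ : IsPrimitiveRoot ζ N')

/-- `W` fixes the constants. -/
theorem twft_cl_W_const (c : L) :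
    ssm_gl_W L N' q hq2 hqN' (algebraMap L ↥(lg_E L (N' * q)) c) =
      algebraMap L ↥(lg_E L (N' * q)) c :=
  s35as_W_const q (lg_E L N') (lg_E L (N' * q)) (ssm_al_E_le L N' q) (ssm_gl_W L N' q hq2 hqN')
    (fun z => ssm_al_coe_WE_of_mem L N' q hq.out hq2 hqN' z.2 _) c

include hζ in
set_option synthInstance.maxHeartbeats 400000 in
set_option maxHeartbeats 3200000 in
/-- **[d] COMP**: the component-group congruence in the vocabulary of `S35/AbelAsm`. -/
theorem twft_cl_hcomp (m : ℕ) (hm : m ≠ 0) (g : ↥(lg_E L (N' * q))) (hg : g ≠ 0)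
    (hord : ∀ P : Place L ↥(lg_E L (N' * q)), (m : ℤ) ∣ P.ord g) (n1 n2 : ℤ)
    (h1 : s35as_IsGU (↥O)
      ((g * s35as_pi (π := ((q : ℕ) : ↥O)) O (lg_E L (N' * q)) ^ (-n1) : ↥(lg_E L (N' * q))) :
        LaurentSeries L))
    (h2 : s35as_IsGU (↥O)
      ((ssm_gl_W L N' q hq2 hqN' g *
          s35as_pi (π := ((q : ℕ) : ↥O)) O (lg_E L (N' * q)) ^ (-n2) : ↥(lg_E L (N' * q))) :
        LaurentSeries L))
    (hred : ∃ (k1 : ResidueField O) (ρ1 : LaurentSeries (ResidueField O)), k1 ≠ 0 ∧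
        ρ1 ∈ s35kp_kappa O hπ (lg_E L N') (ssm_ga_E_le_quotField O N') ∧
        s35as_red (↥O)
          ((g * s35as_pi (π := ((q : ℕ) : ↥O)) O (lg_E L (N' * q)) ^ (-n1) :
            ↥(lg_E L (N' * q))) : LaurentSeries L) =
          algebraMap (ResidueField O) (LaurentSeries (ResidueField O)) k1 * ρ1 ^ m) :
    (m : ℤ) ∣ n2 - n1 := by
  have hpi0 : s35as_pi (π := ((q : ℕ) : ↥O)) O (lg_E L (N' * q)) ≠ 0 :=
    s35as_pi_ne_zero O hπ (lg_E L (N' * q))
  have hG0 : g * s35as_pi (π := ((q : ℕ) : ↥O)) O (lg_E L (N' * q)) ^ (-n1) ≠ 0 :=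
    mul_ne_zero hg (zpow_ne_zero _ hpi0)
  -- orders
  have hordG : ∀ P : Place L ↥(lg_E L (N' * q)),
      (m : ℤ) ∣ P.ord (g * s35as_pi (π := ((q : ℕ) : ↥O)) O (lg_E L (N' * q)) ^ (-n1)) := by
    intro P
    rw [P.ord_mul hg (zpow_ne_zero _ hpi0), P.ord_zpow]
    have h0 : P.ord (s35as_pi (π := ((q : ℕ) : ↥O)) O (lg_E L (N' * q))) = 0 :=
      hw_ord_algebraMap P _
    rw [h0, mul_zero, add_zero]
    exact hord P
  obtain ⟨k1, ρ1, hk1, hρ1, hu1⟩ := hred
  obtain ⟨hG1, hG2, k, S, hk, hS1, hcong⟩ :=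
    s35as_comp_data O hπ q (lg_E L N') (lg_E L (N' * q)) (ssm_al_E_le L N' q)
      (ssm_ga_E_le_quotField O (N' * q)) (ssm_gl_W L N' q hq2 hqN')
      (fun z => ssm_al_coe_WE_of_mem L N' q hq.out hq2 hqN' z.2 _) m hm g n1 n2 h1 h2
      ⟨k1, ρ1, hk1,
        s35as_mem_range_of_mem_kappa O hπ (lg_E L N') (ssm_ga_E_le_quotField O N') hρ1, hu1⟩
  exact twft_leg_comp L O N' q hq2 hqN' hπ ζ hζ m hG0 hordG hG1 (n2 - n1) hG2 hk hS1 hcong

include hζ in
set_option synthInstance.maxHeartbeats 400000 in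
set_option maxHeartbeats 3200000 in
/-- **[d] COMP + [e] LIFT in one call.** -/
theorem twft_cl_main (m : ℕ) (hm : m ≠ 0) (g : ↥(lg_E L (N' * q))) (hg : g ≠ 0)
    (hord : ∀ P : Place L ↥(lg_E L (N' * q)), (m : ℤ) ∣ P.ord g)
    (hred1 : ∀ n1 : ℤ,
      s35as_IsGU (↥O)
        ((g * s35as_pi (π := ((q : ℕ) : ↥O)) O (lg_E L (N' * q)) ^ (-n1) :
          ↥(lg_E L (N' * q))) : LaurentSeries L) →
      ∃ (k1 : ResidueField O) (ρ1 : LaurentSeries (ResidueField O)), k1 ≠ 0 ∧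
        ρ1 ∈ s35kp_kappa O hπ (lg_E L N') (ssm_ga_E_le_quotField O N') ∧
        s35as_red (↥O)
          ((g * s35as_pi (π := ((q : ℕ) : ↥O)) O (lg_E L (N' * q)) ^ (-n1) :
            ↥(lg_E L (N' * q))) : LaurentSeries L) =
          algebraMap (ResidueField O) (LaurentSeries (ResidueField O)) k1 * ρ1 ^ m)
    (hred2 : ∀ n2 : ℤ,
      s35as_IsGU (↥O)
        ((ssm_gl_W L N' q hq2 hqN' g *
            s35as_pi (π := ((q : ℕ) : ↥O)) O (lg_E L (N' * q)) ^ (-n2) :
          ↥(lg_E L (N' * q))) : LaurentSeries L) →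
      ∃ (k2 : ResidueField O) (ρ2 : LaurentSeries (ResidueField O)), k2 ≠ 0 ∧
        ρ2 ∈ s35kp_kappa O hπ (lg_E L N') (ssm_ga_E_le_quotField O N') ∧
        s35as_red (↥O)
          ((ssm_gl_W L N' q hq2 hqN' g *
              s35as_pi (π := ((q : ℕ) : ↥O)) O (lg_E L (N' * q)) ^ (-n2) :
            ↥(lg_E L (N' * q))) : LaurentSeries L) =
          algebraMap (ResidueField O) (LaurentSeries (ResidueField O)) k2 * ρ2 ^ m) :
    ∃ (c : L) (R g' : ↥(lg_E L (N' * q))), c ≠ 0 ∧ R ≠ 0 ∧ g' ≠ 0 ∧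
      g = algebraMap L ↥(lg_E L (N' * q)) c * R ^ m * g' ∧
      s35_ConstRed O hπ N' q hq2 hqN' g' ∧
      ∀ P : Place L ↥(lg_E L (N' * q)), (m : ℤ) ∣ P.ord g' := by
  obtain ⟨c, R, g', hc, hR, hg', hgeq, hconst⟩ :=
    s35as_leg_comp_lift_kappa O hπ N' q hq2 hqN' m hm g hg
      (fun n1 n2 h1 h2 =>
        twft_cl_hcomp L O N' q hq2 hqN' hπ ζ hζ m hm g hg hord n1 n2 h1 h2 (hred1 n1 h1))
      hred1 hred2
  refine ⟨c, R, g', hc, hR, hg', hgeq, hconst, fun P => ?_⟩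
  have hcE : algebraMap L ↥(lg_E L (N' * q)) c ≠ 0 := by
    rw [Ne, map_eq_zero]; exact hc
  have h1 := hord P
  rw [hgeq, P.ord_mul (mul_ne_zero hcE (pow_ne_zero m hR)) hg',
    P.ord_mul hcE (pow_ne_zero m hR), hw_ord_algebraMap, zero_add] at h1
  have h2 : P.ord (R ^ m) = (m : ℤ) * P.ord R := by
    have := P.ord_zpow R (m : ℤ)
    rwa [zpow_natCast] at this
  rw [h2] at h1
  exact (Int.dvd_add_right (Dvd.intro _ rfl)).1 h1

end NF

end Fermat.Agent.TW
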