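/-
Project ONE MACHINE (S43), block [F], cell (Z7) step [a] DESC (helper15; prefix `twfc_`;
statement by helper20, #4889 (3)).

**THE UNRAMIFIED DESCENT OF AN `I_A`-FIXED `m`-TORSION CLASS.**

`z ∈ J₀(N)[m]` fixed by the inertia group `I_A` (`A` over `q`), `T ⊆ Q̄` a finite set of
`I_A`-fixed constants.  Then `z` has a representative `f` (`s44f_Rep N m z f`) which descends, up to
a constant and an `m`-th power, to an unramified level `L1 ⊇ T`:
`f = c₀ · r₀^m · bc g1`, `g1 ∈ F_N(L1)`, all orders of `g1` divisible by `m`.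

Proof: `s44f_rep_exists`; the Kummer class of `f` is `I_A`-fixed (`s35k_fix_kummer`); `s35d_descU`.
-/
import Mathlib
import Fermat.Agent.S35.DescU
import Fermat.Agent.S35.KummerGeom
import Fermat.Agent.S44.FrameAPI

set_option autoImplicit false
set_option linter.unusedSectionVars false
set_option linter.unusedVariables false
set_option linter.style.haveILetI false
set_option synthInstance.maxHeartbeats 400000
set_option maxHeartbeats 1000000

noncomputable section

namespace Fermat.Agent.TW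

open ModularCurve AlgebraicCurve Fermat.Agent.JT3 Fermat.Agent.S24 Fermat.Agent.SS
  Fermat.Agent.S35 Fermat.Agent.SS2 Fermat.Agent.S44 Fermat.Agent.FF IntermediateField

local notation "GQ" => (AlgebraicClosure ℚ ≃ₐ[ℚ] AlgebraicClosure ℚ)
local notation "Qb" => AlgebraicClosure ℚ

/-- **[a] DESC.** -/
theorem twfc_desc (A : ValuationSubring Qb) {q : ℕ} [hq : Fact q.Prime] (hA : A.LiesOverPrime q)
    (N : ℕ) [NeZero N] {m : ℕ} (hm : m ≠ 0) (T : Finset Qb)
    (hT : ∀ t ∈ T, ∀ s ∈ A.inertiaSubgroupIn ℚ, s t = t) {z : JZero N} (hz : m • z = 0)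
    (hfix : ∀ σ ∈ A.inertiaSubgroupIn ℚ, σ • z = z) :
    ∃ f : modularFunctionFieldBar N, s44f_Rep N m z f ∧
      ∃ L1 : IntermediateField ℚ Qb, s35d_IsLevel A q L1 ∧ (↑T : Set Qb) ⊆ L1 ∧
        ∃ (g1 : laurentBaseChange L1 (modularFunctionFieldFull N)) (c₀ : Qb)
          (r₀ : modularFunctionFieldBar N), g1 ≠ 0 ∧ c₀ ≠ 0 ∧ r₀ ≠ 0 ∧
          f = algebraMap Qb (modularFunctionFieldBar N) c₀ * r₀ ^ m *
            dsc_bcHom L1 Qb (modularFunctionFieldFull N) g1 ∧
          ∀ w : Place L1 (laurentBaseChange L1 (modularFunctionFieldFull N)),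
            (m : ℤ) ∣ w.ord g1 := by
  obtain ⟨f, hrep⟩ := s44f_rep_exists N z hz
  refine ⟨f, hrep, ?_⟩
  obtain ⟨hf, D, rfl, hD⟩ := hrep
  have hord : ∀ v : Place Qb (modularFunctionFieldBar N), (m : ℤ) ∣ v.ord f :=
    fun v => ⟨_, (hD v).symm⟩
  have hfix' : ∀ s ∈ A.inertiaSubgroupIn ℚ,
      ∃ (c : Qb) (r : modularFunctionFieldBar N), c ≠ 0 ∧ r ≠ 0 ∧
        arithmeticGalois (modularFunctionFieldFull N) s • f =
          algebraMap Qb (modularFunctionFieldBar N) c * r ^ m * f := by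
    intro s hs
    obtain ⟨c, r, hr, hcr⟩ := s35k_fix_kummer (rt_isSepGen_jBar N)
      (arithmeticGalois (modularFunctionFieldFull N) s) D hf hD (hfix s hs)
    refine ⟨c, r, ?_, hr, hcr⟩
    rintro rfl
    rw [map_zero, zero_mul, zero_mul] at hcr
    have : arithmeticGalois (modularFunctionFieldFull N) s • f ≠ 0 := by
      rwa [Ne, smul_eq_zero_iff_eq]
    exact this hcr
  exact s35d_descU N q A hA T hT hm hf hord hfix'

end Fermat.Agent.TW
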