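/-
Project ONE MACHINE (S43), block [F], cell (Z7) [TORIC] (helper20; prefix `twft_`).

**THE NORMAL FORM OF AN `I_A`-FIXED TORSION CLASS WITH `ν = 0 = δ` AT `z` AND AT `W_q z`.**

`A` over `q` odd, `q ∤ M`, `m ≠ 0` prime to `6 q`.  For `z ∈ J₀(M q)[m]` fixed by the inertia group
`I_A` with `ν z = 0 = ν (W_q z)` and `δ z = 0 = δ (W_q z)`, and any finite set `T` of `I_A`-fixed
constants (`twft_normal_form`):

  `z` has a representative `f = c₀ · r₀^m · bc g1`, `g1 ∈ F_{M q}(L1)` over an unramified level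
  `L1 ⊇ T ∪ {ζ_M}`, and on the Legendre cover `ι g1 = k · R^m · g'` with all orders of `g'` divisible
  by `m` and CONSTANT reductions of `g'` at both Gauss valuations (`s35_ConstRed`).

This is the common input of (Z7) (`φ² = q²`, `Toric/Main.lean`) and (Z8)-J (`φ = −q W_q`).

Steps: [a] DESC `twfc_desc` (helper15); [b] BRIDGE `twft_br_pow` (the reduction of a Gauss-unit model
of a representing function is an `f̄_z` (`twft_br_fbar`), hence an `m`-th power over `kA` by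
`twfr_pow_of_nu_delta`); [c] ROOT DESCENT `s35as_root_desc_F` (helper4/helper12); W-transport
`twft_br_W`, `twft_br_rep_W`; [d] COMP `twft_cl_hcomp` (helper4, from `twft_leg_comp`);
[d']+[e] `s35as_leg_comp_lift_kappa` (helper4).
-/
import Mathlib
import Fermat.Agent.TW.Easy.Mono.PairNF
import Fermat.Agent.S35.AbelAsm.NormaliseKappa
import Fermat.Agent.TW.Easy.Toric.ClassOfFF
import Fermat.Agent.TW.Easy.Toric.NodeLeg
import Fermat.Agent.TW.Easy.Toric.Stmt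
import Fermat.Agent.TW.Easy.Toric.Desc
import Fermat.Agent.TW.Easy.WTwo
import Fermat.Agent.TW.Easy.Res.Main
import Fermat.Agent.S35.AbelAsm.RootDescF
import Fermat.Agent.TW.Easy.Toric.CompLift

set_option autoImplicit false
set_option linter.unusedSectionVars false
set_option linter.unusedVariables false
set_option linter.style.haveILetI false
set_option synthInstance.maxHeartbeats 400000
set_option maxHeartbeats 1000000

noncomputable section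

namespace Fermat.Agent.TW

open Polynomial ModularCurve AlgebraicCurve IntermediateField IsLocalRing
open Fermat.Agent.JT3 Fermat.Agent.SS Fermat.Agent.S35 Fermat.Agent.S24 Fermat.Agent.S44
  Fermat.Agent.SS2

local notation "Qb" => AlgebraicClosure ℚ

section Bridge

variable (A : ValuationSubring Qb) {q : ℕ} [hq : Fact q.Prime] (hA : A.LiesOverPrime q)
  (M : ℕ) [NeZero M] [NeZero q] [NeZero (M * q)] (hqM : ¬ q ∣ M) (hq2 : q ≠ 2)
  {m : ℕ} (hm0 : m ≠ 0) (hm6 : Nat.Coprime m 6)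
  (L1 : IntermediateField ℚ Qb)
  [IsDiscreteValuationRing ↥(A.comap (algebraMap ↥L1 Qb))]
  [CharP (ResidueField ↥(A.comap (algebraMap ↥L1 Qb))) q]
  {π : ↥(A.comap (algebraMap ↥L1 Qb))} (hπ : Irreducible π)

/-- `red x` is an `f̄_z` for every Gauss-unit model `x` over `L1` of a representing function of
`z` (copy of `twfm_fbar` without the normality of `L1`). -/
theorem twft_br_fbar {z : JZero (M * q)}
    {x : ↥(s44mz_VF (A.comap (algebraMap ↥L1 Qb)) hπ M q)} (hx : IsUnit x)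
    (hrep : s44f_Rep (M * q) m z (ssm_al_iotaF ↥L1 (M * q) (x : ↥(lg_F ↥L1 (M * q))))) :
    twfr_Fbar A M q m z (s44nlr_red A hA M hqM L1 hπ x) :=
  ⟨s44mm_red_ne_zero A hA M hqM L1 hπ (s44nlr_red A hA M hqM L1 hπ) (fun x hb => rfl) hx, _,
    hrep, s44nlr_redOf A hA M hqM L1 hπ x⟩

include hA hq2 hm0 hm6 in
/-- **[b] BRIDGE**: `ν z = 0 = δ z` ⟹ the Gauss reduction of a unit model `x` of a representing
function of `z` becomes an `m`-th power in `F_M(kA)` after extending the constants to `kA`. -/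
theorem twft_br_pow {z : JZero (M * q)} (hz : m • z = 0)
    (hν : twfr_nu A M q hq.out hqM m z = 0) (hδ : twfr_delta A M q m z = 0)
    {x : ↥(s44mz_VF (A.comap (algebraMap ↥L1 Qb)) hπ M q)} (hx : IsUnit x)
    (hrep : s44f_Rep (M * q) m z (ssm_al_iotaF ↥L1 (M * q) (x : ↥(lg_F ↥L1 (M * q))))) :
    ∃ h : LaurentSeries (ResidueField ↥A), h ∈ lg_F (ResidueField ↥A) M ∧
      coeffMap (s44nlr_kappa A L1)
        (gq_res ↥(A.comap (algebraMap ↥L1 Qb)) ↥L1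
          ⟨((x : ↥(lg_F ↥L1 (M * q))) : LaurentSeries ↥L1), x.2⟩) = h ^ m := by
  have hFb := twft_br_fbar A hA M hqM L1 hπ hx hrep
  obtain ⟨g, hg0, hg⟩ := twfr_pow_of_nu_delta A hA M hqM hq2 hm0 hm6 hz hν hδ hFb
  refine ⟨(g : LaurentSeries (ResidueField ↥A)), g.2, ?_⟩
  rw [← s44nlr_red_coe A hA M hqM L1 hπ x, hg]
  rfl

/-- multiplying a model of a representing function (exponent `m`) by a nonzero constant of `L1`
(copy of `twfm_rep_const` without the normality of `L1`). -/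
theorem twft_br_rep_const {z : JZero (M * q)} {x : ↥(lg_F ↥L1 (M * q))} {c : ↥L1}
    (hc : c ≠ 0) (hrep : s44f_Rep (M * q) m z (ssm_al_iotaF ↥L1 (M * q) x)) :
    s44f_Rep (M * q) m z
      (ssm_al_iotaF ↥L1 (M * q) (algebraMap ↥L1 ↥(lg_F ↥L1 (M * q)) c * x)) := by
  have hc' : algebraMap ↥L1 Qb c ≠ 0 := (_root_.map_ne_zero _).2 hc
  have h := (s44b_rep_pth (M * q) (p := m) (z := z) (f := ssm_al_iotaF ↥L1 (M * q) x)
    (c := algebraMap ↥L1 Qb c) (h := (1 : modularFunctionFieldBar (M * q))) hc'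
    one_ne_zero).2 hrep
  rw [one_pow, mul_one] at h
  rw [map_mul, ssm_al_iotaF_algebraMap]
  exact h

include hA hq2 hm0 hm6 in
/-- **[b]+[c]**: the normalised `V₁`-reduction of `ι x0` (`x0` a model over `L1` of a representing
function of `z`, `ν z = 0 = δ z`) is a constant times an `m`-th power in `κ'(L1)`. -/
theorem twft_br_hred (hqm : ¬ q ∣ m) {z : JZero (M * q)} (hz : m • z = 0)
    (hν : twfr_nu A M q hq.out hqM m z = 0) (hδ : twfr_delta A M q m z = 0)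
    {x0 : ↥(lg_F ↥L1 (M * q))}
    (hrep : s44f_Rep (M * q) m z (ssm_al_iotaF ↥L1 (M * q) x0)) (n : ℤ)
    (hGU : s35as_IsGU ↥(A.comap (algebraMap ↥L1 Qb))
      ((lg_phiE (L := ↥L1) (N := M * q) x0 *
        s35as_pi (π := π) (A.comap (algebraMap ↥L1 Qb)) (lg_E ↥L1 (M * q)) ^ (-n) :
          ↥(lg_E ↥L1 (M * q))) : LaurentSeries ↥L1)) :
    ∃ (k1 : ResidueField ↥(A.comap (algebraMap ↥L1 Qb)))
      (ρ1 : LaurentSeries (ResidueField ↥(A.comap (algebraMap ↥L1 Qb)))), k1 ≠ 0 ∧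
      ρ1 ∈ s35kp_kappa (A.comap (algebraMap ↥L1 Qb)) hπ (lg_E ↥L1 M)
        (ssm_ga_E_le_quotField (A.comap (algebraMap ↥L1 Qb)) M) ∧
      s35as_red ↥(A.comap (algebraMap ↥L1 Qb))
        ((lg_phiE (L := ↥L1) (N := M * q) x0 *
          s35as_pi (π := π) (A.comap (algebraMap ↥L1 Qb)) (lg_E ↥L1 (M * q)) ^ (-n) :
            ↥(lg_E ↥L1 (M * q))) : LaurentSeries ↥L1) =
        algebraMap _ _ k1 * ρ1 ^ m := by
  have hπL : ((π : ↥(A.comap (algebraMap ↥L1 Qb))) : ↥L1) ≠ 0 :=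
    fun h => hπ.ne_zero (Subtype.ext h)
  obtain ⟨y, hy⟩ : ∃ y : ↥(lg_F ↥L1 (M * q)),
      y = algebraMap ↥L1 ↥(lg_F ↥L1 (M * q))
        (((π : ↥(A.comap (algebraMap ↥L1 Qb))) : ↥L1) ^ (-n)) * x0 := ⟨_, rfl⟩
  have hphi : lg_phiE (L := ↥L1) (N := M * q) y =
      lg_phiE (L := ↥L1) (N := M * q) x0 *
        s35as_pi (π := π) (A.comap (algebraMap ↥L1 Qb)) (lg_E ↥L1 (M * q)) ^ (-n) := by
    rw [hy, map_mul, AlgHom.commutes, map_zpow₀]
    exact mul_comm _ _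
  rw [← hphi] at hGU ⊢
  have hyV : y ∈ s44mz_VF (A.comap (algebraMap ↥L1 Qb)) hπ M q :=
    (s44nlr_phi_mem_iff (A.comap (algebraMap ↥L1 Qb)) hπ M q y).1 hGU.1
  have hy0 : y ≠ 0 := by
    rintro rfl
    exact hGU.ne_zero (by rw [map_zero]; rfl)
  have hyinvV : y⁻¹ ∈ s44mz_VF (A.comap (algebraMap ↥L1 Qb)) hπ M q := by
    refine (s44nlr_phi_mem_iff (A.comap (algebraMap ↥L1 Qb)) hπ M q y⁻¹).1 ?_
    have h1 := hGU.inv_bdd
    have h2 : ((lg_phiE (L := ↥L1) (N := M * q) y⁻¹ : ↥(lg_E ↥L1 (M * q))) : LaurentSeries ↥L1) =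
        ((lg_phiE (L := ↥L1) (N := M * q) y : ↥(lg_E ↥L1 (M * q))) : LaurentSeries ↥L1)⁻¹ := by
      rw [map_inv₀]
      rfl
    have h3 : gq_IsBdd ↥(A.comap (algebraMap ↥L1 Qb)) ↥L1
        ((lg_phiE (L := ↥L1) (N := M * q) y⁻¹ : ↥(lg_E ↥L1 (M * q))) : LaurentSeries ↥L1) := by
      rw [h2]
      exact h1
    exact h3
  have hunit : IsUnit (⟨y, hyV⟩ : ↥(s44mz_VF (A.comap (algebraMap ↥L1 Qb)) hπ M q)) :=
    isUnit_iff_exists_inv.2 ⟨⟨y⁻¹, hyinvV⟩, Subtype.ext (mul_inv_cancel₀ hy0)⟩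
  have hrepy : s44f_Rep (M * q) m z (ssm_al_iotaF ↥L1 (M * q) y) := by
    rw [hy]
    exact twft_br_rep_const M L1 (zpow_ne_zero _ hπL) hrep
  obtain ⟨h, hh, hpow⟩ := twft_br_pow A hA M hqM hq2 hm0 hm6 L1 hπ hz hν hδ
    (x := ⟨y, hyV⟩) hunit hrepy
  haveI : CharP (ResidueField ↥A) q := jcr_charP A hA
  have hmk : ((m : ℕ) : ResidueField ↥A) ≠ 0 := by
    rw [Ne, CharP.cast_eq_zero_iff (ResidueField ↥A) q m]
    exact hqm
  exact s35as_root_desc_F (A.comap (algebraMap ↥L1 Qb)) hπ M q hqM (s44nlr_kappa A L1)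
    hmk ⟨y, hyV⟩ hunit hh hpow

/-- the Atkin–Lehner involution of the cover on `ι F_{M q}`: `W_E (ι x) = ι (W_F x)`. -/
theorem twft_br_W (hq2' : ¬ 2 ∣ q) (x0 : ↥(lg_F ↥L1 (M * q))) :
    ssm_gl_W ↥L1 M q hq2' hqM (lg_phiE (L := ↥L1) (N := M * q) x0) =
      lg_phiE (L := ↥L1) (N := M * q) (ssm_al_W ↥L1 M q hq.out hqM x0) := by
  apply Subtype.ext
  rw [ssm_gl_W_apply]
  exact ssm_al_coe_WE_phi ↥L1 M q hq.out hq2' hqM x0 _

/-- `W_F x0` is a model of a representing function of `W_q z`. -/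
theorem twft_br_rep_W {z : JZero (M * q)} {x0 : ↥(lg_F ↥L1 (M * q))}
    (hrep : s44f_Rep (M * q) m z (ssm_al_iotaF ↥L1 (M * q) x0)) :
    s44f_Rep (M * q) m (s44w_WJ M q hq.out hqM z)
      (ssm_al_iotaF ↥L1 (M * q) (ssm_al_W ↥L1 M q hq.out hqM x0)) := by
  rw [ssm_al_W_apply, ssm_al_Whom_spec]
  exact twf_w_rep_WJ M q hq.out hqM m hrep

include hA hm0 hm6 in
/-- **the normal form at a level**: for a model `x0` over `L1` (a number field level with `ζ_M`,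
`q` a uniformiser) of a representing function of `z` with `ν = δ = 0` at `z` and at `W_q z`:
`ι x0 = c · R^m · g'` with `g'` of constant reductions at both Gauss valuations. -/
theorem twft_nf_at (hq2' : ¬ 2 ∣ q) (hqm : ¬ q ∣ m) [NumberField ↥L1]
    (hπq : Irreducible ((q : ℕ) : ↥(A.comap (algebraMap ↥L1 Qb))))
    (ζ : ↥L1) (hζ : IsPrimitiveRoot ζ M)
    {z : JZero (M * q)} (hz : m • z = 0)
    (hν : twfr_nu A M q hq.out hqM m z = 0)
    (hνW : twfr_nu A M q hq.out hqM m (s44w_WJ M q hq.out hqM z) = 0)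
    (hδ : twfr_delta A M q m z = 0)
    (hδW : twfr_delta A M q m (s44w_WJ M q hq.out hqM z) = 0)
    {x0 : ↥(lg_F ↥L1 (M * q))}
    (hrep : s44f_Rep (M * q) m z (ssm_al_iotaF ↥L1 (M * q) x0)) :
    ∃ (c : ↥L1) (R g' : ↥(lg_E ↥L1 (M * q))), c ≠ 0 ∧ R ≠ 0 ∧ g' ≠ 0 ∧
      lg_phiE (L := ↥L1) (N := M * q) x0 =
        algebraMap ↥L1 ↥(lg_E ↥L1 (M * q)) c * R ^ m * g' ∧
      (∀ v : Place ↥L1 ↥(lg_E ↥L1 (M * q)), (m : ℤ) ∣ v.ord g') ∧
      s35_ConstRed (A.comap (algebraMap ↥L1 Qb)) hπq M q hq2' hqM g' := by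
  have hq2n : q ≠ 2 := fun h => hq2' (h ▸ dvd_rfl)
  obtain ⟨hG0, hordG⟩ := s44mci_ord_rep ↥L1 (M * q) hrep x0 rfl
  have hG0' : lg_phiE (L := ↥L1) (N := M * q) x0 ≠ 0 := hG0
  have hordG' : ∀ v : Place ↥L1 ↥(lg_E ↥L1 (M * q)),
      (m : ℤ) ∣ v.ord (lg_phiE (L := ↥L1) (N := M * q) x0) := hordG
  have hzW : m • s44w_WJ M q hq.out hqM z = 0 := twf_w_WJ_tors M q hq.out hqM m z hz
  have hrepW := twft_br_rep_W M hqM L1 (m := m) hrep
  have hred1 := fun (n1 : ℤ) h =>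
    twft_br_hred A hA M hqM hq2n hm0 hm6 L1 hπq hqm hz hν hδ hrep n1 h
  have hred2 : ∀ n2 : ℤ,
      s35as_IsGU ↥(A.comap (algebraMap ↥L1 Qb))
        ((ssm_gl_W ↥L1 M q hq2' hqM (lg_phiE (L := ↥L1) (N := M * q) x0) *
          s35as_pi (π := ((q : ℕ) : ↥(A.comap (algebraMap ↥L1 Qb))))
            (A.comap (algebraMap ↥L1 Qb)) (lg_E ↥L1 (M * q)) ^ (-n2) :
          ↥(lg_E ↥L1 (M * q))) : LaurentSeries ↥L1) →
      ∃ (k2 : ResidueField ↥(A.comap (algebraMap ↥L1 Qb)))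
        (ρ2 : LaurentSeries (ResidueField ↥(A.comap (algebraMap ↥L1 Qb)))), k2 ≠ 0 ∧
        ρ2 ∈ s35kp_kappa (A.comap (algebraMap ↥L1 Qb)) hπq (lg_E ↥L1 M)
          (ssm_ga_E_le_quotField (A.comap (algebraMap ↥L1 Qb)) M) ∧
        s35as_red ↥(A.comap (algebraMap ↥L1 Qb))
          ((ssm_gl_W ↥L1 M q hq2' hqM (lg_phiE (L := ↥L1) (N := M * q) x0) *
            s35as_pi (π := ((q : ℕ) : ↥(A.comap (algebraMap ↥L1 Qb))))
              (A.comap (algebraMap ↥L1 Qb)) (lg_E ↥L1 (M * q)) ^ (-n2) :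
            ↥(lg_E ↥L1 (M * q))) : LaurentSeries ↥L1) =
          algebraMap _ _ k2 * ρ2 ^ m := by
    intro n2 h
    rw [twft_br_W M hqM L1 hq2' x0] at h ⊢
    exact twft_br_hred A hA M hqM hq2n hm0 hm6 L1 hπq hqm hzW hνW hδW hrepW n2 h
  have hcomp := fun (n1 n2 : ℤ) h1 h2 =>
    twft_cl_hcomp ↥L1 (A.comap (algebraMap ↥L1 Qb)) M q hq2' hqM hπq ζ hζ m hm0 _ hG0' hordG'
      n1 n2 h1 h2 (hred1 n1 h1)
  obtain ⟨c, R, g', hc0, hR0, hg'0, hgd, hcr⟩ :=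
    s35as_leg_comp_lift_kappa (A.comap (algebraMap ↥L1 Qb)) hπq M q hq2' hqM m hm0
      (lg_phiE (L := ↥L1) (N := M * q) x0) hG0' hcomp hred1 hred2
  refine ⟨c, R, g', hc0, hR0, hg'0, hgd, ?_, hcr⟩
  intro v
  have hcE : algebraMap ↥L1 ↥(lg_E ↥L1 (M * q)) c ≠ 0 := by
    rw [Ne, map_eq_zero]
    exact hc0
  have h1 := congrArg v.ord hgd
  rw [v.ord_mul (mul_ne_zero hcE (pow_ne_zero m hR0)) hg'0,
    v.ord_mul hcE (pow_ne_zero m hR0), hw_ord_algebraMap, zero_add, ← zpow_natCast,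
    v.ord_zpow] at h1
  have h2 : v.ord g' = v.ord (lg_phiE (L := ↥L1) (N := M * q) x0) - (m : ℤ) * v.ord R := by
    rw [h1]; ring
  rw [h2]
  exact dvd_sub (hordG' v) (dvd_mul_right _ _)

end Bridge

section NormalForm

variable (A : ValuationSubring Qb) {q : ℕ} [hq : Fact q.Prime] (hA : A.LiesOverPrime q)
  (M : ℕ) [NeZero M] [NeZero q] [NeZero (M * q)] (hqM : ¬ q ∣ M) (hq2 : ¬ 2 ∣ q)
  {m : ℕ} (hm0 : m ≠ 0) (hm6 : Nat.Coprime m 6) (hqm : ¬ q ∣ m)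

include hA hm0 hm6 hqm in
/-- **(Z7)/(Z8) NORMAL FORM.**  `z ∈ J₀(M q)[m]` fixed by `I_A` with `ν = 0 = δ` at `z` and at
`W_q z`; `T` a finite set of `I_A`-fixed constants.  Then `z` has a representative `f` which
descends to an unramified level `L1 ⊇ T ∪ {ζ_M}`: `f = c₀ · r₀^m · bc g1`, and on the Legendre cover
`ι g1 = k · R^m · g'` with all orders of `g'` divisible by `m` and CONSTANT reductions of `g'` at
both Gauss valuations. -/
theorem twft_normal_form (T : Finset Qb)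
    (hT : ∀ t ∈ T, ∀ s ∈ A.inertiaSubgroupIn ℚ, s t = t)
    {z : JZero (M * q)} (hz : m • z = 0)
    (hfix : ∀ σ ∈ A.inertiaSubgroupIn ℚ, σ • z = z)
    (hν : twfr_nu A M q hq.out hqM m z = 0)
    (hνW : twfr_nu A M q hq.out hqM m (s44w_WJ M q hq.out hqM z) = 0)
    (hδ : twfr_delta A M q m z = 0)
    (hδW : twfr_delta A M q m (s44w_WJ M q hq.out hqM z) = 0) :
    ∃ f : modularFunctionFieldBar (M * q), s44f_Rep (M * q) m z f ∧
      ∃ L1 : IntermediateField ℚ Qb, s35d_IsLevel A q L1 ∧ (↑T : Set Qb) ⊆ L1 ∧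
        (∃ ζ : ↥L1, IsPrimitiveRoot ζ M) ∧
        ∃ (g1 : laurentBaseChange L1 (modularFunctionFieldFull (M * q))) (c₀ : Qb)
          (r₀ : modularFunctionFieldBar (M * q)), g1 ≠ 0 ∧ c₀ ≠ 0 ∧ r₀ ≠ 0 ∧
          f = algebraMap Qb (modularFunctionFieldBar (M * q)) c₀ * r₀ ^ m *
            dsc_bcHom L1 Qb (modularFunctionFieldFull (M * q)) g1 ∧
          (∀ w : Place L1 (laurentBaseChange L1 (modularFunctionFieldFull (M * q))),
            (m : ℤ) ∣ w.ord g1) ∧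
          ∀ [IsDiscreteValuationRing ↥(A.comap (algebraMap ↥L1 Qb))]
            [CharP (ResidueField ↥(A.comap (algebraMap ↥L1 Qb))) q]
            (hπ : Irreducible ((q : ℕ) : ↥(A.comap (algebraMap ↥L1 Qb)))),
            ∃ (k : ↥L1) (R g' : ↥(lg_E ↥L1 (M * q))), k ≠ 0 ∧ R ≠ 0 ∧ g' ≠ 0 ∧
              ss2_dp_iota ↥L1 (M * q) g1 =
                algebraMap ↥L1 ↥(lg_E ↥L1 (M * q)) k * R ^ m * g' ∧
              (∀ v : Place ↥L1 ↥(lg_E ↥L1 (M * q)), (m : ℤ) ∣ v.ord g') ∧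
              s35_ConstRed (A.comap (algebraMap ↥L1 Qb)) hπ M q hq2 hqM g' := by
  classical
  obtain ⟨ζ', hζ'⟩ : ∃ ζ' : Qb, IsPrimitiveRoot ζ' M :=
    HasEnoughRootsOfUnity.exists_primitiveRoot Qb M
  have hζfix : ∀ s ∈ A.inertiaSubgroupIn ℚ, s ζ' = ζ' := fun s hs =>
    s35d_root_fixed A q hA hqM hζ'.pow_eq_one hs
  have hT' : ∀ t ∈ insert ζ' T, ∀ s ∈ A.inertiaSubgroupIn ℚ, s t = t := by
    intro t ht s hs
    rcases Finset.mem_insert.1 ht with rfl | ht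
    · exact hζfix s hs
    · exact hT t ht s hs
  obtain ⟨f, hrep, L1, hlev, hT'L1, g1, c₀, r₀, hg1, hc₀, hr₀, hfeq, hordg1⟩ :=
    twfc_desc A hA (M * q) hm0 (insert ζ' T) hT' hz hfix
  have hTL1 : (↑T : Set Qb) ⊆ L1 := fun x hx => hT'L1 (by
    rw [Finset.coe_insert]; exact Set.mem_insert_of_mem _ hx)
  have hζL1 : ζ' ∈ L1 := hT'L1 (by rw [Finset.coe_insert]; exact Set.mem_insert _ _)
  have hζ1 : IsPrimitiveRoot (L1.val (⟨ζ', hζL1⟩ : L1)) M := hζ'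
  have hζ2 : IsPrimitiveRoot (⟨ζ', hζL1⟩ : L1) M :=
    IsPrimitiveRoot.of_map_of_injective hζ1 Subtype.val_injective
  refine ⟨f, hrep, L1, hlev, hTL1, ⟨_, hζ2⟩, g1, c₀, r₀, hg1, hc₀, hr₀, hfeq, hordg1, ?_⟩
  intro _ _ hπ
  haveI : NumberField ↥L1 := { to_charZero := inferInstance, to_finiteDimensional := hlev.fd }
  -- the model over `L1`, in the `lg_F` vocabulary
  obtain ⟨x0, hx0⟩ : ∃ x0 : ↥(lg_F ↥L1 (M * q)),
      (x0 : LaurentSeries ↥L1) = (g1 : LaurentSeries ↥L1) :=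
    ⟨⟨(g1 : LaurentSeries ↥L1), ss2_dp_mem_lgF ↥L1 (M * q) g1.2⟩, rfl⟩
  have hbc : ssm_al_iotaF ↥L1 (M * q) x0 =
      dsc_bcHom ↥L1 Qb (modularFunctionFieldFull (M * q)) g1 := by
    apply Subtype.ext
    show ssm_al_iota ↥L1 (x0 : LaurentSeries ↥L1) = _
    rw [hx0]
    rfl
  have hι : ss2_dp_iota ↥L1 (M * q) g1 = lg_phiE (L := ↥L1) (N := M * q) x0 := by
    apply Subtype.ext
    show qExpand ↥L1 2 (g1 : LaurentSeries ↥L1) = qExpand ↥L1 2 (x0 : LaurentSeries ↥L1)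
    rw [hx0]
  have hrep0 : s44f_Rep (M * q) m z (ssm_al_iotaF ↥L1 (M * q) x0) := by
    rw [hbc]
    have e : f = algebraMap Qb (modularFunctionFieldBar (M * q)) c₀ *
        dsc_bcHom ↥L1 Qb (modularFunctionFieldFull (M * q)) g1 * r₀ ^ m := by
      rw [hfeq]; ring
    rw [e] at hrep
    exact (s44b_rep_pth (M * q) hc₀ hr₀).1 hrep
  rw [hι]
  exact twft_nf_at A hA M hqM hm0 hm6 L1 hq2 hqm hπ ⟨ζ', hζL1⟩ hζ2 hz hν hνW hδ hδW hrep0

end NormalForm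

end Fermat.Agent.TW
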