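/-
Project ONE MACHINE (S43), block [F], cell (Z8)-J step [f] (helper15; prefix `twfc_`).

**FROM THE SWAP IDENTITY `W (σ g') · g'^Q = c · r^m` IN THE LEGENDRE COVER OVER `L1` TO THE IDENTITY
`W_q (φ • z) + Q • z = 0` ON CLASSES OF `J₀(M q)`.**

Same interface as `ClassOfFF.lean` (`N := M q`): `z` represented by `f = c₀ · r₀^m · bc g1`,
`ι g1 = k · R^m · g'` in `lg_E L1 (M q)`, `σ1 = φ|L1`; `W_E = ssm_gl_W`, `W_F = ss2_dp_WF`,
`W̄ = ssm_al_Wbar`, `W_q = s44w_WJ`.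

* `twfc_rep_smul`, `twfc_rep_mul`, `twfc_rep_pow`, `twfc_rep_zero` : calculus of `s44f_Rep`;
* `twfc_class_W`   : `W̄ (φ f) · f^Q = c · r^m` ⟹ `W_q (φ • z) + Q • z = 0`;
* `twfc_cover_W`   : the identity for `g'` ⟹ the identity for `ι g1 = k · R^m · g'`;
* `twfc_bc_WF`     : `bc (W_F g) = W̄ (bc g)`;
* `twfc_bar_W`     : … ⟹ `W̄ (φ f) · f^Q = c'' · r''^m` over `Q̄`;
* **`twfc_class_of_ff_W`** : … ⟹ `W_q (φ • z) + Q • z = 0`.
-/
import Mathlib
import Fermat.Agent.TW.Easy.Toric.ClassOfFF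
import Fermat.Agent.TW.Easy.WTwo
import Fermat.Agent.S36.Kum.Calc

set_option autoImplicit false
set_option linter.unusedSectionVars false
set_option linter.unusedVariables false
set_option linter.style.haveILetI false
set_option synthInstance.maxHeartbeats 400000
set_option maxHeartbeats 1000000

noncomputable section

namespace Fermat.Agent.TW

open ModularCurve AlgebraicCurve Module Fermat.Agent.JT3 Fermat.Agent.S24 Fermat.Agent.SS
  Fermat.Agent.S35 Fermat.Agent.SS2 Fermat.Agent.S44 Fermat.Agent.FF Fermat.Agent.S36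

local notation "GQ" => (AlgebraicClosure ℚ ≃ₐ[ℚ] AlgebraicClosure ℚ)
local notation "Qb" => AlgebraicClosure ℚ

/-! ### calculus of representatives -/

section Rep

variable (N : ℕ) [NeZero N] {m : ℕ}

/-- `f` represents `z` ⟹ `φ f` represents `φ • z`. -/
theorem twfc_rep_smul (φ : GQ) {z : JZero N} {f : modularFunctionFieldBar N}
    (h : s44f_Rep N m z f) : s44f_Rep N m (φ • z) (ss_act N φ f) := by
  obtain ⟨hf, D, rfl, hD⟩ := h
  set gφ : SemilinearAut Qb (modularFunctionFieldBar N) :=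
    arithmeticGalois (modularFunctionFieldFull N) φ with hgφ
  have hK : s36k_Kum m (D : Divisor Qb (modularFunctionFieldBar N)) f := ⟨hf, hD⟩
  have hK' := s36k_kum_smul gφ hK
  refine ⟨hK'.1, SemilinearAut.degZeroSMulHom gφ D, ?_, fun v => ?_⟩
  · exact (SemilinearAut.pic0_smul_mk gφ D).symm
  · rw [SemilinearAut.coe_degZeroSMulHom]
    exact hK'.2 v

/-- representatives multiply. -/
theorem twfc_rep_mul {z z' : JZero N} {f f' : modularFunctionFieldBar N}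
    (h : s44f_Rep N m z f) (h' : s44f_Rep N m z' f') : s44f_Rep N m (z + z') (f * f') := by
  obtain ⟨hf, D, rfl, hD⟩ := h
  obtain ⟨hf', D', rfl, hD'⟩ := h'
  have hK := s36k_kum_mul (m := m) (D := (D : Divisor Qb (modularFunctionFieldBar N)))
    (D' := (D' : Divisor Qb (modularFunctionFieldBar N))) ⟨hf, hD⟩ ⟨hf', hD'⟩
  refine ⟨hK.1, D + D', rfl, fun v => ?_⟩
  rw [AddSubgroup.coe_add]
  exact hK.2 v

/-- powers of representatives. -/
theorem twfc_rep_pow {z : JZero N} {f : modularFunctionFieldBar N}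
    (h : s44f_Rep N m z f) (k : ℕ) : s44f_Rep N m (k • z) (f ^ k) := by
  obtain ⟨hf, D, rfl, hD⟩ := h
  have hK := s36k_kum_pow (m := m) (D := (D : Divisor Qb (modularFunctionFieldBar N)))
    ⟨hf, hD⟩ k
  refine ⟨hK.1, k • D, (map_nsmul (QuotientAddGroup.mk' _) k D), fun v => ?_⟩
  rw [AddSubgroup.coe_nsmul]
  exact hK.2 v

/-- a constant times an `m`-th power represents only the zero class. -/
theorem twfc_rep_zero (hm : m ≠ 0) {z : JZero N} {f : modularFunctionFieldBar N}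
    (h : s44f_Rep N m z f) {c : Qb} {r : modularFunctionFieldBar N} (hr : r ≠ 0)
    (hf : f = algebraMap Qb (modularFunctionFieldBar N) c * r ^ m) : z = 0 := by
  obtain ⟨hf0, D, rfl, hD⟩ := h
  rw [s36k_mk_eq_zero_iff]
  exact s36k_isPrincipal_of_const_pow hm ⟨hf0, hD⟩ hr hf

end Rep

/-! ### the class step -/

section ClassW

variable (M q : ℕ) [NeZero M] [NeZero q] [NeZero (M * q)] [hq : Fact q.Prime] (hqM : ¬ q ∣ M)

/-- **the class step, swap shape**: `W̄ (φ f) · f^Q = c · r^m` for a representative `f` of `z` ⟹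
`W_q (φ • z) + Q • z = 0`. -/
theorem twfc_class_W (φ : GQ) {m : ℕ} (hm : m ≠ 0) {z : JZero (M * q)}
    {f : modularFunctionFieldBar (M * q)} (hrep : s44f_Rep (M * q) m z f) (Q : ℕ)
    {c : Qb} {r : modularFunctionFieldBar (M * q)} (hr : r ≠ 0)
    (h : ssm_al_Wbar M q hq.out hqM (ss_act (M * q) φ f) * f ^ Q =
      algebraMap Qb (modularFunctionFieldBar (M * q)) c * r ^ m) :
    s44w_WJ M q hq.out hqM (φ • z) + Q • z = 0 := by
  have h1 := twf_w_rep_WJ M q hq.out hqM m (twfc_rep_smul (M * q) φ hrep)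
  have h2 := twfc_rep_mul (M * q) h1 (twfc_rep_pow (M * q) hrep Q)
  exact twfc_rep_zero (M * q) hm h2 hr h

end ClassW

/-! ### the cover step -/

section CoverW

variable (L1 : Type) [Field L1] [Algebra ℚ L1] [CharZero L1] [Algebra L1 Qb]
  [IsScalarTower ℚ L1 Qb] (M q : ℕ) [NeZero M] [NeZero q] [hq : Fact q.Prime]
  (hq2 : ¬ 2 ∣ q) (hqM : ¬ q ∣ M)

/-- `W_E` fixes the constants. -/
theorem twfc_WE_const (a : L1) :
    ssm_gl_W L1 M q hq2 hqM (algebraMap L1 (lg_E L1 (M * q)) a) =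
      algebraMap L1 (lg_E L1 (M * q)) a := by
  rw [ssm_gl_W_apply]
  exact AlgEquiv.commutes _ a

/-- **the cover step, swap shape**: from the identity for `g'` to the identity for
`G0 = k · R^m · g'`. -/
theorem twfc_cover_W (σ : L1 ≃+* L1) {m : ℕ} (Q : ℕ) {k : L1} {R g' G0 : lg_E L1 (M * q)}
    (hG0 : G0 = algebraMap L1 (lg_E L1 (M * q)) k * R ^ m * g')
    {c : L1} {r : lg_E L1 (M * q)}
    (hid : ssm_gl_W L1 M q hq2 hqM (ssm_sg_aut (M * q) σ g') * g' ^ Q =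
      algebraMap L1 (lg_E L1 (M * q)) c * r ^ m) :
    ssm_gl_W L1 M q hq2 hqM (ssm_sg_aut (M * q) σ G0) * G0 ^ Q =
      algebraMap L1 (lg_E L1 (M * q)) (σ k * k ^ Q * c) *
        (ssm_gl_W L1 M q hq2 hqM (ssm_sg_aut (M * q) σ R) * R ^ Q * r) ^ m := by
  have e : ssm_gl_W L1 M q hq2 hqM (ssm_sg_aut (M * q) σ G0) * G0 ^ Q =
      algebraMap L1 (lg_E L1 (M * q)) (σ k) * algebraMap L1 (lg_E L1 (M * q)) k ^ Q *
        (ssm_gl_W L1 M q hq2 hqM (ssm_sg_aut (M * q) σ R) * R ^ Q) ^ m *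
        (ssm_gl_W L1 M q hq2 hqM (ssm_sg_aut (M * q) σ g') * g' ^ Q) := by
    rw [hG0]
    simp only [map_mul, map_pow, ssm_sg_aut_algebraMap, twfc_WE_const]
    ring
  rw [e, hid, map_mul, map_mul, map_pow]
  ring

end CoverW

/-! ### back to `Q̄` -/

section BarW

variable (L1 : Type) [Field L1] [Algebra ℚ L1] [CharZero L1] [Algebra L1 Qb]
  [IsScalarTower ℚ L1 Qb] (M q : ℕ) [NeZero M] [NeZero q] [hq : Fact q.Prime]
  (hq2 : ¬ 2 ∣ q) (hqM : ¬ q ∣ M)

/-- `bc (W_F g) = W̄ (bc g)`. -/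
theorem twfc_bc_WF (g : laurentBaseChange L1 (modularFunctionFieldFull (M * q))) :
    dsc_bcHom L1 Qb (modularFunctionFieldFull (M * q)) (ss2_dp_WF L1 M q hqM g) =
      ssm_al_Wbar M q hq.out hqM (dsc_bcHom L1 Qb (modularFunctionFieldFull (M * q)) g) := by
  have hx : (g : LaurentSeries L1) ∈ lg_F L1 (M * q) := ss2_dp_mem_lgF L1 (M * q) g.2
  have h := ssm_al_W_spec L1 M q hq.out hqM ⟨g, hx⟩
  have e1 : ssm_al_iotaF L1 (M * q) ⟨g, hx⟩ =
      dsc_bcHom L1 Qb (modularFunctionFieldFull (M * q)) g := Subtype.ext rfl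
  have e2 : ssm_al_iotaF L1 (M * q) (ssm_al_W L1 M q hq.out hqM ⟨g, hx⟩) =
      dsc_bcHom L1 Qb (modularFunctionFieldFull (M * q)) (ss2_dp_WF L1 M q hqM g) := by
    apply Subtype.ext
    rw [ssm_al_coe_iotaF, dsc_bcHom_coe, ss2_dp_WF_coe]
    rfl
  rw [← e2, h, e1]

/-- **the descent step back to `Q̄`, swap shape**: from the identity for `ι g1` in the cover over `L1`
to the identity for `f = c₀ · r₀^m · bc g1` over `Q̄`. -/
theorem twfc_bar_W (φ : GQ) (σ1 : L1 ≃ₐ[ℚ] L1)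
    (hσ : ∀ x : L1, algebraMap L1 Qb (σ1 x) = φ (algebraMap L1 Qb x))
    {m : ℕ} (hm : m ≠ 0) (Q : ℕ) {f : modularFunctionFieldBar (M * q)}
    (g1 : laurentBaseChange L1 (modularFunctionFieldFull (M * q))) (hg1 : g1 ≠ 0)
    (hord : ∀ w : Place L1 (laurentBaseChange L1 (modularFunctionFieldFull (M * q))),
      (m : ℤ) ∣ w.ord g1)
    {c₀ : Qb} {r₀ : modularFunctionFieldBar (M * q)} (hc₀ : c₀ ≠ 0) (hr₀ : r₀ ≠ 0)
    (hfeq : f = algebraMap Qb (modularFunctionFieldBar (M * q)) c₀ * r₀ ^ m *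
      dsc_bcHom L1 Qb (modularFunctionFieldFull (M * q)) g1)
    {c : L1} {r : lg_E L1 (M * q)}
    (hid : ssm_gl_W L1 M q hq2 hqM
        (ssm_sg_aut (M * q) σ1.toRingEquiv (ss2_dp_iota L1 (M * q) g1)) *
          ss2_dp_iota L1 (M * q) g1 ^ Q =
        algebraMap L1 (lg_E L1 (M * q)) c * r ^ m) :
    ∃ (c' : Qb) (r' : modularFunctionFieldBar (M * q)), r' ≠ 0 ∧
      ssm_al_Wbar M q hq.out hqM (ss_act (M * q) φ f) * f ^ Q =
        algebraMap Qb (modularFunctionFieldBar (M * q)) c' * r' ^ m := by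
  set Φ1 := arithmeticGalois (modularFunctionFieldFull (M * q)) σ1 with hΦ1
  set G := dsc_bcHom L1 Qb (modularFunctionFieldFull (M * q)) g1 with hG
  have hΦg : Φ1 • g1 ≠ 0 := by rwa [Ne, smul_eq_zero_iff_eq]
  have hWΦg : ss2_dp_WF L1 M q hqM (Φ1 • g1) ≠ 0 := by rwa [Ne, map_eq_zero]
  have hG0 : G ≠ 0 := by rwa [hG, Ne, map_eq_zero]
  obtain ⟨h1, hh1⟩ : ∃ h1 : laurentBaseChange L1 (modularFunctionFieldFull (M * q)),
      h1 = ss2_dp_WF L1 M q hqM (Φ1 • g1) * g1 ^ Q := ⟨_, rfl⟩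
  have hh10 : h1 ≠ 0 := by
    rw [hh1]
    exact mul_ne_zero hWΦg (pow_ne_zero _ hg1)
  have hordh : ∀ w : Place L1 (laurentBaseChange L1 (modularFunctionFieldFull (M * q))),
      (m : ℤ) ∣ w.ord h1 := fun w => by
    rw [hh1, w.ord_mul hWΦg (pow_ne_zero _ hg1), ssk_ord_pow]
    refine dvd_add ?_ (Dvd.dvd.mul_left (hord w) _)
    exact lg_dvd_ord_of_embedding (ss2_dp_WF L1 M q hqM).toAlgHom (m : ℤ) (Φ1 • g1)
      (fun v => by rw [ssd_ord_smul]; exact hord _) w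
  -- the image of `h1` in the cover
  have hιh : ss2_dp_iota L1 (M * q) h1 = algebraMap L1 (lg_E L1 (M * q)) c * r ^ m := by
    rw [hh1, map_mul, map_pow, ← ss2_dp_WE_iota L1 M q hq2 hqM, ss2_dp_iota_smul]
    exact hid
  -- root descent from the cover
  have hmemE : ∀ x : LaurentSeries L1, x ∈ lg_E L1 (M * q) →
      x ∈ laurentBaseChange L1 (lg_E ℚ (M * q)) :=
    fun x hx => by rw [← ssd_lg_E_eq L1 (M * q)]; exact hx
  have heq : qExpand L1 2 (h1 : LaurentSeries L1) =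
      algebraMap L1 (LaurentSeries L1) c * (r : LaurentSeries L1) ^ m := by
    have := congrArg (fun z : lg_E L1 (M * q) => (z : LaurentSeries L1)) hιh
    exact this
  obtain ⟨c', g', hcg⟩ := ssd_leg_rootDescent (M * q) L1 hm h1 hordh c (r : LaurentSeries L1)
    (hmemE _ r.2) heq
  have hg'0 : g' ≠ 0 := by
    rintro rfl
    rw [zero_pow hm, mul_zero] at hcg
    exact hh10 hcg
  -- base change
  have e1 : dsc_bcHom L1 Qb (modularFunctionFieldFull (M * q)) h1 =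
      ssm_al_Wbar M q hq.out hqM (ss_act (M * q) φ G) * G ^ Q := by
    rw [hh1, map_mul, map_pow, twfc_bc_WF, ss2_dp_bc_smul L1 (M * q) φ σ1 hσ]
  have e2 : dsc_bcHom L1 Qb (modularFunctionFieldFull (M * q)) h1 =
      algebraMap Qb (modularFunctionFieldBar (M * q)) (algebraMap L1 Qb c') *
        dsc_bcHom L1 Qb (modularFunctionFieldFull (M * q)) g' ^ m := by
    rw [hcg, map_mul, map_pow, dsc_bcHom_algebraMap]
  have hbg' : dsc_bcHom L1 Qb (modularFunctionFieldFull (M * q)) g' ≠ 0 := by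
    rwa [Ne, map_eq_zero]
  have hφr₀ : ss_act (M * q) φ r₀ ≠ 0 := by rwa [Ne, smul_eq_zero_iff_eq]
  have hWφr₀ : ssm_al_Wbar M q hq.out hqM (ss_act (M * q) φ r₀) ≠ 0 := by
    rwa [Ne, map_eq_zero]
  refine ⟨φ c₀ * c₀ ^ Q * algebraMap L1 Qb c',
    ssm_al_Wbar M q hq.out hqM (ss_act (M * q) φ r₀) * r₀ ^ Q *
      dsc_bcHom L1 Qb (modularFunctionFieldFull (M * q)) g',
    mul_ne_zero (mul_ne_zero hWφr₀ (pow_ne_zero _ hr₀)) hbg', ?_⟩
  have hact : ss_act (M * q) φ f =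
      algebraMap Qb (modularFunctionFieldBar (M * q)) (φ c₀) * ss_act (M * q) φ r₀ ^ m *
        ss_act (M * q) φ G := by
    rw [hfeq]
    show arithmeticGalois (modularFunctionFieldFull (M * q)) φ • _ = _
    rw [smul_mul', smul_mul', smul_pow']
    congr 2
    exact ss2_dp_act_const (M * q) φ c₀
  have key : ssm_al_Wbar M q hq.out hqM (ss_act (M * q) φ f) * f ^ Q =
      algebraMap Qb (modularFunctionFieldBar (M * q)) (φ c₀) *
        algebraMap Qb (modularFunctionFieldBar (M * q)) c₀ ^ Q *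
        (ssm_al_Wbar M q hq.out hqM (ss_act (M * q) φ r₀) * r₀ ^ Q) ^ m *
        (ssm_al_Wbar M q hq.out hqM (ss_act (M * q) φ G) * G ^ Q) := by
    rw [hact]
    conv_lhs => rw [hfeq]
    simp only [map_mul, map_pow, AlgHom.commutes]
    ring
  rw [key, ← e1, e2]
  simp only [map_mul, map_pow]
  ring

/-- **[f], swap shape ((Z8)-J)**: the function-field identity `W_E (σ1 g') · g'^Q = c · r^m` for the
normalised `g'` (`ι g1 = k · R^m · g'`) gives `W_q (φ • z) + Q • z = 0` for the class `z`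
represented by `f = c₀ · r₀^m · bc g1`. -/
theorem twfc_class_of_ff_W [NeZero (M * q)] (φ : GQ) (σ1 : L1 ≃ₐ[ℚ] L1)
    (hσ : ∀ x : L1, algebraMap L1 Qb (σ1 x) = φ (algebraMap L1 Qb x))
    {m : ℕ} (hm : m ≠ 0) (Q : ℕ) {z : JZero (M * q)} {f : modularFunctionFieldBar (M * q)}
    (hrep : s44f_Rep (M * q) m z f)
    (g1 : laurentBaseChange L1 (modularFunctionFieldFull (M * q))) (hg1 : g1 ≠ 0)
    (hord : ∀ w : Place L1 (laurentBaseChange L1 (modularFunctionFieldFull (M * q))),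
      (m : ℤ) ∣ w.ord g1)
    {c₀ : Qb} {r₀ : modularFunctionFieldBar (M * q)} (hc₀ : c₀ ≠ 0) (hr₀ : r₀ ≠ 0)
    (hfeq : f = algebraMap Qb (modularFunctionFieldBar (M * q)) c₀ * r₀ ^ m *
      dsc_bcHom L1 Qb (modularFunctionFieldFull (M * q)) g1)
    {k : L1} {R g' : lg_E L1 (M * q)}
    (hι : ss2_dp_iota L1 (M * q) g1 = algebraMap L1 (lg_E L1 (M * q)) k * R ^ m * g')
    {c : L1} {r : lg_E L1 (M * q)}
    (hid : ssm_gl_W L1 M q hq2 hqM (ssm_sg_aut (M * q) σ1.toRingEquiv g') * g' ^ Q =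
      algebraMap L1 (lg_E L1 (M * q)) c * r ^ m) :
    s44w_WJ M q hq.out hqM (φ • z) + Q • z = 0 := by
  have h1 := twfc_cover_W L1 M q hq2 hqM σ1.toRingEquiv Q hι hid
  obtain ⟨c', r', hr', h2⟩ := twfc_bar_W L1 M q hq2 hqM φ σ1 hσ hm Q g1 hg1 hord hc₀ hr₀ hfeq h1
  exact twfc_class_W M q hqM φ hm hrep Q hr' h2

end BarW

end Fermat.Agent.TW
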