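import Fermat.Agent.TW.Easy.Res.Main
import Fermat.Agent.S44.WJ.Basic

/-!
# Project ONE MACHINE, block [F], cell (Z7) [TORIC] (helper20): THE STATEMENT

`A` a valuation subring of `ℚ̄` over the odd prime `q`, `φ` a Frobenius element at `A`, level
`M * q` with `q ∤ M`, exponent `m` prime to `6 q`.  For `z ∈ J₀(M q)[m]` fixed by the inertia group
of `A`, with `ν z = 0 = ν (W_q z)` and `δ z = 0 = δ (W_q z)` (`ν = twfr_nu`, `δ = twfr_delta` of
`TW/Easy/Res`: the class of `z` lies in the TORIC part of the special fibre):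

  `φ • φ • z = q ^ 2 • z`.

`twft_Toric_stmt` is this statement for all data; `twft_ToricAt` the statement at one `(A, φ, M, m)`.
Prefix `twft_`, namespace `Fermat.Agent.TW`.
-/

set_option autoImplicit false
set_option linter.unusedSectionVars false

noncomputable section

namespace Fermat.Agent.TW

open ModularCurve AlgebraicCurve IsLocalRing Fermat.Agent.JT3 Fermat.Agent.S35 Fermat.Agent.SS
  Fermat.Agent.S24 Fermat.Agent.SS2 Fermat.Agent.S44

local notation "Qb" => AlgebraicClosure ℚ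
local notation "GQ" => (AlgebraicClosure ℚ ≃ₐ[ℚ] AlgebraicClosure ℚ)

/-- **(Z7) [TORIC] at `(A, φ, M, m)`.** -/
def twft_ToricAt (A : ValuationSubring Qb) {q : ℕ} [hq : Fact q.Prime] (φ : GQ)
    (M : ℕ) [NeZero M] [NeZero q] [NeZero (M * q)] (hqM : ¬ q ∣ M) (m : ℕ) : Prop :=
  ∀ z : JZero (M * q), m • z = 0 →
    (∀ s ∈ A.inertiaSubgroupIn ℚ, s • z = z) →
    twfr_nu A M q hq.out hqM m z = 0 →
    twfr_nu A M q hq.out hqM m (s44w_WJ M q hq.out hqM z) = 0 →
    twfr_delta A M q m z = 0 →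
    twfr_delta A M q m (s44w_WJ M q hq.out hqM z) = 0 →
    φ • (φ • z) = (q ^ 2) • z

/-- **(Z7) [TORIC].** -/
def twft_Toric_stmt : Prop :=
  ∀ (A : ValuationSubring Qb) {q : ℕ} [Fact q.Prime] (_ : A.LiesOverPrime q)
    (φ : GQ) (_ : A.IsFrobeniusAt φ q)
    (M : ℕ) [NeZero M] [NeZero q] [NeZero (M * q)] (hqM : ¬ q ∣ M) (_ : q ≠ 2)
    (m : ℕ) (_ : m ≠ 0) (_ : Nat.Coprime m 6) (_ : ¬ q ∣ m),
    twft_ToricAt A φ M hqM m

end Fermat.Agent.TW
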