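import Mathlib
import Fermat.Agent.TW.Easy.Toric.NodeLeg
import Fermat.Agent.S35.AbelAsm.NormaliseKappa

/-!
# Project ONE MACHINE, block [F], cell (Z7), step [d]: THE `hcomp` HYPOTHESIS (helper15)

**`twft_hcomp`** : the component-group congruence `m ∣ V₂(G) − V₁(G)` in exactly the shape of the
hypothesis `hcomp` of helper4's `s35as_leg_comp_lift_kappa`, from helper20's `twft_leg_comp`
(`TW/Easy/Toric/NodeLeg.lean`) and the `hred1`-shape of the `V₁`-reduction of `G`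
(a constant times an `m`-th power in the residue function field `κ'` of `lg_E L N'`).

Statement verbatim helper20 (finding 4917 (ii)).  Prefix `twfh_`, namespace `Fermat.Agent.TW`.
-/

set_option autoImplicit false
set_option linter.unusedSectionVars false
set_option linter.unusedVariables false
set_option linter.style.haveILetI false

noncomputable section

namespace Fermat.Agent.TW

open Fermat.Agent.SS Fermat.Agent.S35 Fermat.Agent.JT3 Fermat.Agent.S24 IntermediateField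
  ModularCurve IsLocalRing AlgebraicCurve Polynomial

local notation "Qb" => AlgebraicClosure ℚ

section Gen

variable {L : Type*} [Field L] (O : ValuationSubring L) [IsDiscreteValuationRing O] {π : O}
  (hπ : Irreducible π)
variable (E : IntermediateField L (LaurentSeries L)) (hE : E ≤ gq_quotField O L)

/-- a Gauss unit of `E` is a unit of the Gauss valuation ring. -/
theorem twfh_unit_of_isGU {x : ↥E} (hx : s35as_IsGU (↥O) (x : LaurentSeries L)) :
    x ∈ gq_valSubOf π hπ.ne_zero hπ.maximalIdeal_eq E hE ∧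
      x ∉ (gq_valSubOf π hπ.ne_zero hπ.maximalIdeal_eq E hE).nonunits := by
  refine ⟨hx.1, fun h => ?_⟩
  exact hx.2 ((s35as_mem_nonunits_iff O hπ E hE x).1 h).2

end Gen

section Main

set_option synthInstance.maxHeartbeats 400000 in
set_option maxHeartbeats 3200000 in
/-- **step [d] of (Z7)**: the `hcomp` hypothesis of `s35as_leg_comp_lift_kappa`. -/
theorem twft_hcomp (L : Type) [Field L] [NumberField L] [Algebra L Qb] (O : ValuationSubring L)
    [IsDiscreteValuationRing O] (N' q : ℕ) [NeZero N'] [NeZero q] [hq : Fact q.Prime]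
    [CharP (ResidueField O) q] (hq2 : ¬ 2 ∣ q) (hqN' : ¬ q ∣ N')
    (hπ : Irreducible ((q : ℕ) : ↥O)) (ζ : L) (hζ : IsPrimitiveRoot ζ N') (m : ℕ)
    {G : ↥(lg_E L (N' * q))} (hG : G ≠ 0)
    (hord : ∀ P : Place L ↥(lg_E L (N' * q)), (m : ℤ) ∣ P.ord G) (n1 n2 : ℤ)
    (h1 : s35as_IsGU ↥O
      ((G * s35as_pi (π := ((q : ℕ) : ↥O)) O (lg_E L (N' * q)) ^ (-n1) : ↥(lg_E L (N' * q))) :
        LaurentSeries L))
    (h2 : s35as_IsGU ↥O
      ((ssm_gl_W L N' q hq2 hqN' G * s35as_pi (π := ((q : ℕ) : ↥O)) O (lg_E L (N' * q)) ^ (-n2) :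
        ↥(lg_E L (N' * q))) : LaurentSeries L))
    (hred : ∃ (k1 : ResidueField O) (ρ1 : LaurentSeries (ResidueField O)), k1 ≠ 0 ∧
      ρ1 ∈ s35kp_kappa O hπ (lg_E L N') (ssm_ga_E_le_quotField O N') ∧
      s35as_red ↥O
        ((G * s35as_pi (π := ((q : ℕ) : ↥O)) O (lg_E L (N' * q)) ^ (-n1) :
          ↥(lg_E L (N' * q))) : LaurentSeries L) = algebraMap _ _ k1 * ρ1 ^ m) :
    (m : ℤ) ∣ n2 - n1 := by
  haveI := ssm_go_isScalarTower O (lg_E L (N' * q))
  have hpi0 : (s35as_pi (π := ((q : ℕ) : ↥O)) O (lg_E L (N' * q))) ≠ 0 := s35as_pi_ne_zero O hπ (lg_E L (N' * q))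
  have hpiO : algebraMap ↥O ↥(lg_E L (N' * q)) ((q : ℕ) : ↥O) = (s35as_pi (π := ((q : ℕ) : ↥O)) O (lg_E L (N' * q))) := rfl
  obtain ⟨k1, ρ1, hk1, hρ1, hu1⟩ := hred
  have hEq : lg_E L (N' * q) ≤ gq_quotField O L := ssm_ga_E_le_quotField O (N' * q)
  -- the reduction of `G' = G π^(-n1)` is nonzero
  have hne : algebraMap (ResidueField O) (LaurentSeries (ResidueField O)) k1 * ρ1 ^ m ≠ 0 := by
    rw [← hu1]
    exact h1.2
  -- a `V1`-unit `S` of `lg_E L N'` with `red S ^ m = ρ1 ^ m`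
  obtain ⟨S, hSu, hSred⟩ : ∃ S : ↥(lg_E L (N' * q)), s35as_IsGU ↥O (S : LaurentSeries L) ∧
      s35as_red ↥O (S : LaurentSeries L) ^ m = ρ1 ^ m := by
    by_cases hρ : ρ1 = 0
    · have hm : m = 0 := by
        by_contra hm
        apply hne
        rw [hρ, zero_pow hm, mul_zero]
      refine ⟨1, ?_, ?_⟩
      · exact s35as_isGU_one
      · rw [hm, pow_zero, pow_zero]
    · obtain ⟨z, hz⟩ :=
        (s35kp_mem_kappa O hπ (lg_E L N') (ssm_ga_E_le_quotField O N')).1 hρ1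
      have hzb : gq_IsBdd (↥O) L (((z : ↥(lg_E L N')) : ↥(lg_E L N')) : LaurentSeries L) := z.2
      have hzred : s35as_red ↥O (((z : ↥(lg_E L N')) : ↥(lg_E L N')) : LaurentSeries L) = ρ1 := by
        rw [s35as_red_eq hzb, ← hz, s35kp_redHom_apply]
      have hcoe : ((IntermediateField.inclusion (ssm_al_E_le L N' q) (z : ↥(lg_E L N')) :
          ↥(lg_E L (N' * q))) : LaurentSeries L) =
          (((z : ↥(lg_E L N')) : ↥(lg_E L N')) : LaurentSeries L) :=
        IntermediateField.coe_inclusion (ssm_al_E_le L N' q) (z : ↥(lg_E L N'))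
      refine ⟨IntermediateField.inclusion (ssm_al_E_le L N' q) (z : ↥(lg_E L N')), ?_, ?_⟩
      · rw [hcoe]
        refine ⟨hzb, ?_⟩
        rw [hzred]
        exact hρ
      · rw [hcoe, hzred]
  -- a unit `k` of `O` lifting `k1`
  obtain ⟨k, rfl⟩ := residue_surjective k1
  have hk : IsUnit k := by
    by_contra hnk
    exact hk1 ((residue_eq_zero_iff k).2 ((mem_maximalIdeal k).2 hnk))
  -- the data of `twft_leg_comp`
  have hG' : G * (s35as_pi (π := ((q : ℕ) : ↥O)) O (lg_E L (N' * q))) ^ (-n1) ≠ 0 := mul_ne_zero hG (zpow_ne_zero _ hpi0)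
  have hord' : ∀ P : Place L ↥(lg_E L (N' * q)), (m : ℤ) ∣ P.ord (G * (s35as_pi (π := ((q : ℕ) : ↥O)) O (lg_E L (N' * q))) ^ (-n1)) := by
    intro P
    rw [P.ord_mul hG (zpow_ne_zero _ hpi0), P.ord_zpow]
    have h0 : P.ord (s35as_pi (π := ((q : ℕ) : ↥O)) O (lg_E L (N' * q))) = 0 := hw_ord_algebraMap P _
    rw [h0, mul_zero, add_zero]
    exact hord P
  have hG1 := twfh_unit_of_isGU O hπ (lg_E L (N' * q)) hEq h1
  have hWpi : ssm_gl_W L N' q hq2 hqN' (s35as_pi (π := ((q : ℕ) : ↥O)) O (lg_E L (N' * q))) = (s35as_pi (π := ((q : ℕ) : ↥O)) O (lg_E L (N' * q))) :=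
    (ssm_al_WE L N' q hq.out hq2 hqN').commutes _
  have hdiv : G * (s35as_pi (π := ((q : ℕ) : ↥O)) O (lg_E L (N' * q))) ^ (-n1) / algebraMap ↥O ↥(lg_E L (N' * q)) ((q : ℕ) : ↥O) ^ (n2 - n1) = G * (s35as_pi (π := ((q : ℕ) : ↥O)) O (lg_E L (N' * q))) ^ (-n2) := by
    rw [hpiO, div_eq_mul_inv, ← zpow_neg, mul_assoc, ← zpow_add₀ hpi0]
    congr 2
    ring
  have hWG : ssm_gl_W L N' q hq2 hqN' (G * (s35as_pi (π := ((q : ℕ) : ↥O)) O (lg_E L (N' * q))) ^ (-n2)) =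
      ssm_gl_W L N' q hq2 hqN' G * (s35as_pi (π := ((q : ℕ) : ↥O)) O (lg_E L (N' * q))) ^ (-n2) := by
    rw [map_mul, map_zpow₀, hWpi]
  have hG2' := twfh_unit_of_isGU O hπ (lg_E L (N' * q)) hEq h2
  have hG2 : G * (s35as_pi (π := ((q : ℕ) : ↥O)) O (lg_E L (N' * q))) ^ (-n1) / algebraMap ↥O ↥(lg_E L (N' * q)) ((q : ℕ) : ↥O) ^ (n2 - n1) ∈
        ssm_gl_V2 O hπ N' q hq2 hqN' ∧
      G * (s35as_pi (π := ((q : ℕ) : ↥O)) O (lg_E L (N' * q))) ^ (-n1) / algebraMap ↥O ↥(lg_E L (N' * q)) ((q : ℕ) : ↥O) ^ (n2 - n1) ∉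
        (ssm_gl_V2 O hπ N' q hq2 hqN').nonunits := by
    rw [hdiv]
    refine ⟨?_, ?_⟩
    · rw [ValuationSubring.mem_comap]
      show ssm_gl_W L N' q hq2 hqN' (G * (s35as_pi (π := ((q : ℕ) : ↥O)) O (lg_E L (N' * q))) ^ (-n2)) ∈ _
      rw [hWG]
      exact hG2'.1
    · rw [ssm_tw_nonunits_comap, hWG]
      exact hG2'.2
  have hS := twfh_unit_of_isGU O hπ (lg_E L (N' * q)) hEq hSu
  have hcong : G * (s35as_pi (π := ((q : ℕ) : ↥O)) O (lg_E L (N' * q))) ^ (-n1) - algebraMap ↥O ↥(lg_E L (N' * q)) k * S ^ m ∈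
      (ssm_gl_V1 O hπ N' q).nonunits := by
    rw [s35as_mem_nonunits_iff O hπ (lg_E L (N' * q)) hEq]
    have hkb : gq_IsBdd (↥O) L (algebraMap L (LaurentSeries L) (algebraMap (↥O) L k)) :=
      s35as_bdd_const k
    have hSm : gq_IsBdd (↥O) L ((S : LaurentSeries L) ^ m) := s35as_bdd_pow hSu.1 m
    have hcoe : ((G * (s35as_pi (π := ((q : ℕ) : ↥O)) O (lg_E L (N' * q))) ^ (-n1) - algebraMap ↥O ↥(lg_E L (N' * q)) k * S ^ m : ↥(lg_E L (N' * q))) : LaurentSeries L) =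
        ((G * (s35as_pi (π := ((q : ℕ) : ↥O)) O (lg_E L (N' * q))) ^ (-n1) : ↥(lg_E L (N' * q))) : LaurentSeries L) -
          algebraMap L (LaurentSeries L) (algebraMap (↥O) L k) * (S : LaurentSeries L) ^ m := rfl
    rw [hcoe]
    refine ⟨s35as_bdd_sub h1.1 (s35as_bdd_mul hkb hSm), ?_⟩
    rw [s35as_red_sub h1.1 (s35as_bdd_mul hkb hSm), s35as_red_mul hkb hSm, s35as_red_const,
      s35as_red_pow hSu.1, hSred, hu1, sub_self]
  exact twft_leg_comp L O N' q hq2 hqN' hπ ζ hζ m hG' hord' hG1 (n2 - n1) hG2 hk hS hcong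

end Main

end Fermat.Agent.TW
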